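import Fermat.Agent.WeilPairing.Pairing
import Fermat.Agent.FunField.Extension
import Mathlib.FieldTheory.KummerExtension

/-!
# Nondegeneracy of the Weil pairing
-/

set_option autoImplicit false
set_option linter.unusedSectionVars false
set_option linter.style.haveILetI false

noncomputable section

open AlgebraicCurve IntermediateField Polynomial

namespace Fermat.Agent.WeilPairing

open Fermat.Agent.FunField Fermat.Agent.FunField.PlaceLemmas Fermat.Agent.S27C

universe u

section Kummer

variable {K : Type*} {F : Type u} [Field K] [Field F] [Algebra K F]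

theorem exists_kummer {p : ℕ} (hp : p.Prime) {ζ : K} (hζ : IsPrimitiveRoot ζ p) {f : F}
    (hf : ∀ b : F, b ^ p ≠ f) :
    ∃ (F' : Type u) (_ : Field F') (_ : Algebra K F') (_ : Algebra F F')
      (_ : IsScalarTower K F F') (_ : Module.Finite F F') (g : F') (τ : F' ≃ₐ[F] F'),
      g ^ p = algebraMap F F' f ∧ τ g = algebraMap K F' ζ * g := by
  have hirr : Irreducible (X ^ p - C f : F[X]) := X_pow_sub_C_irreducible_of_prime hp hf
  haveI : Fact (Irreducible (X ^ p - C f : F[X])) := ⟨hirr⟩
  have hζF : IsPrimitiveRoot (algebraMap K F ζ) p := hζ.map_of_injective (algebraMap K F).injective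
  haveI : NeZero p := ⟨hp.ne_zero⟩
  refine ⟨AdjoinRoot (X ^ p - C f : F[X]), inferInstance, inferInstance, inferInstance,
    inferInstance, (monic_X_pow_sub_C f hp.ne_zero).finite_adjoinRoot, AdjoinRoot.root _,
    autAdjoinRootXPowSubC p f hζF.toRootsOfUnity, ?_, ?_⟩
  · rw [root_X_pow_sub_C_pow]; rfl
  · rw [autAdjoinRootXPowSubC_root, Algebra.smul_def]
    congr 1

end Kummer

section Infinite

variable {K F : Type*} [Field K] [Field F] [Algebra K F]

/-- A function field over an infinite constant field has infinitely many places. -/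
theorem infinite_place [h : IsFF K F] [Infinite K] : Infinite (Place K F) := by
  obtain ⟨x, hx, -⟩ := h.exists_transcendental
  have htr : ∀ a : K, Transcendental K (x - algebraMap K F a) := by
    intro a ha
    apply hx
    have := ha.add (isAlgebraic_algebraMap (R := K) (A := F) a)
    rwa [sub_add_cancel] at this
  have hex : ∀ a : K, ∃ v : Place K F, 0 < v.ord (x - algebraMap K F a) :=
    fun a => exists_place_ord_pos (htr a)
  choose v hv using hex
  refine Infinite.of_injective v fun a b hab => ?_
  by_contra hne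
  have h1 := hv a
  have h2 := hv b
  rw [← hab] at h2
  have hx1 : x - algebraMap K F a ≠ 0 := fun h0 => htr a (by rw [h0]; exact isAlgebraic_zero)
  have hx2 : x - algebraMap K F b ≠ 0 := fun h0 => htr b (by rw [h0]; exact isAlgebraic_zero)
  have hx3 : (x - algebraMap K F a) + -(x - algebraMap K F b) = algebraMap K F (b - a) := by
    rw [map_sub]; ring
  have hne' : algebraMap K F (b - a) ≠ 0 := by
    rw [map_ne_zero_iff _ (algebraMap K F).injective]
    exact sub_ne_zero.mpr (Ne.symm hne)
  have h3 := min_ord_le_ord_add (v a) hx1 (neg_ne_zero.mpr hx2) (by rw [hx3]; exact hne')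
  rw [hx3, ord_algebraMap, ord_neg] at h3
  omega

end Infinite

section Adjoint

variable {K F F' : Type*} [Field K] [Field F] [Field F'] [Algebra K F] [Algebra K F']
  [Algebra F F'] [IsScalarTower K F F'] [Module.Finite F F']
  [IsAlgClosed K] [IsFF K F] [IsFF K F']

attribute [local instance] isCurveOver

theorem pushforward_divOf {g : F'} (hg : g ≠ 0) :
    Divisor.pushforward F (divOf g : Divisor K F') = divOf (Algebra.norm F g) :=
  Divisor.pushforward_eq_of_normFormula (PushPull.pushforwardNormFormula K F F') hg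
    (fun w => divOf_apply g w) (fun v => divOf_apply _ v)

theorem pullback_divOf (f : F) :
    Divisor.pullback F' (divOf f : Divisor K F) = divOf (algebraMap F F' f) := by
  ext w
  rw [Divisor.pullback_apply_eq_ord (fun v => divOf_apply f v), divOf_apply]

/-- A divisor vanishing above `v` has pushforward vanishing at `v`. -/
theorem pushforward_apply_eq_zero {D : Divisor K F'} {v : Place K F}
    (h : ∀ w : Place K F', w.restrict F = v → D w = 0) : Divisor.pushforward F D v = 0 := by
  classical
  rw [Divisor.pushforward_apply]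
  refine Finset.sum_eq_zero fun w _ => ?_
  split_ifs with hw
  · rw [h w hw, zero_mul]
  · rfl

theorem pullback_apply_eq_zero_iff (D : Divisor K F) (w : Place K F') :
    Divisor.pullback F' D w = 0 ↔ D (w.restrict F) = 0 := by
  rw [Divisor.pullback_apply]
  have := w.ramificationIndex_pos (F := F)
  constructor
  · intro h
    rcases mul_eq_zero.1 h with h | h
    · omega
    · exact h
  · intro h; rw [h, mul_zero]

attribute [local instance] PushPull.fundamentalIdentity

/-- **Adjointness of pullback and pushforward for the Weil pairing.** -/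
theorem weil_pullback_left {n : ℕ} {x : Pic0 K F} {y : Pic0 K F'} (hx : n • x = 0)
    (hy : n • y = 0) :
    weil n (Pic0.pullbackHom F' x) y =
      weil n x (Pic0.pushforwardHom K F F' (PushPull.pushforwardNormFormula K F F') y) := by
  classical
  obtain ⟨D, hD⟩ := Pic0.mk_surjective x
  obtain ⟨f, hf0, hf⟩ := exists_fun_of_nsmul_eq_zero hx hD
  obtain ⟨E, hE, hES⟩ := exists_rep y ((D : Divisor K F).support.biUnion fun v => v.fiber F')
  obtain ⟨g, hg0, hg⟩ := exists_fun_of_nsmul_eq_zero hy hE
  have hEw : ∀ w : Place K F', (D : Divisor K F) (w.restrict F) ≠ 0 → (E : Divisor K F') w = 0 := by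
    intro w hw
    apply hES
    rw [Finset.mem_biUnion]
    exact ⟨w.restrict F, Finsupp.mem_support_iff.2 hw, Place.mem_fiber.2 rfl⟩
  have hdis1 : ∀ w : Place K F', Divisor.pullback F' (D : Divisor K F) w = 0 ∨
      (E : Divisor K F') w = 0 := by
    intro w
    rw [pullback_apply_eq_zero_iff]
    by_cases h : (D : Divisor K F) (w.restrict F) = 0
    · exact Or.inl h
    · exact Or.inr (hEw w h)
  have hdis2 : ∀ v : Place K F, (D : Divisor K F) v = 0 ∨
      Divisor.pushforward F (E : Divisor K F') v = 0 := by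
    intro v
    by_cases h : (D : Divisor K F) v = 0
    · exact Or.inl h
    · right
      apply pushforward_apply_eq_zero
      intro w hw
      apply hEw
      rw [hw]; exact h
  have hN0 : Algebra.norm F g ≠ 0 := PushPull.norm_ne_zero hg0
  have hfp : divOf (algebraMap F F' f) = n • (Divisor.pullback F' (D : Divisor K F)) := by
    rw [← pullback_divOf, hf, map_nsmul]
  have hgp : divOf (Algebra.norm F g) = n • (Divisor.pushforward F (E : Divisor K F')) := by
    rw [← pushforward_divOf hg0, hg, map_nsmul]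
  have e1 := weil_eq_div (n := n) (Pic0.pullbackDegZeroHom F' D) E
    ((map_ne_zero (algebraMap F F')).2 hf0) hg0 hfp hg hdis1
  have e2 := weil_eq_div (n := n) D (Pic0.pushforwardDegZeroHom F E) hf0 hN0 hf hgp hdis2
  rw [← hD, ← hE, Pic0.pullbackHom_mk, Pic0.pushforwardHom_mk, e1, e2,
    Pic0.coe_pullbackDegZeroHom, Pic0.coe_pushforwardDegZeroHom, ev_algebraMap, ev_norm hg0]
  exact dis_of_divOf_eq' hg hdis1

end Adjoint

section Nondeg

variable {K : Type*} {F : Type u} [Field K] [Field F] [Algebra K F] [IsAlgClosed K] [IsFF K F]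

attribute [local instance] isCurveOver

open SemilinearAut

theorem restrict_smul {F F' : Type*} [Field F] [Field F'] [Algebra K F] [Algebra K F']
    [Algebra F F'] [IsScalarTower K F F'] [Module.Finite F F'] (τ : F' ≃ₐ[F] F')
    (w : Place K F') :
    (ofAlgAut (τ.restrictScalars K) • w).restrict F = w.restrict F := by
  apply Place.ext
  ext x
  rw [Place.restrict_toValuationSubring, Place.restrict_toValuationSubring,
    ValuationSubring.mem_comap, ValuationSubring.mem_comap]
  rw [smul_toValuationSubring, ValuationSubring.mem_pointwise_smul_iff_inv_smul_mem]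
  have h : (ofAlgAut (τ.restrictScalars K))⁻¹ • algebraMap F F' x = algebraMap F F' x := by
    rw [inv_smul_eq_iff]
    exact (τ.commutes x).symm
  rw [h]

/-- Elements of prime order are detected by the Weil pairing. -/
theorem exists_weil_ne_one_of_prime {n p k : ℕ} (hp : p.Prime) (hn : n = p * k)
    (hpK : (p : K) ≠ 0)
    (hdiv : ∀ (F' : Type u) [Field F'] [Algebra K F'] [IsFF K F'] (c : Pic0 K F'),
      ∃ c', n • c' = c) {x : Pic0 K F} (hpx : p • x = 0) (hx0 : x ≠ 0) :
    ∃ y : Pic0 K F, n • y = 0 ∧ weil n x y ≠ 1 := by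
  classical
  obtain ⟨D, hD⟩ := Pic0.mk_surjective x
  obtain ⟨f₁, hf0, hf⟩ := exists_fun_of_nsmul_eq_zero hpx hD
  -- `f₁` is not a `p`-th power
  have hnp : ∀ b : F, b ^ p ≠ f₁ := by
    rintro b rfl
    have hb0 : b ≠ 0 := by
      rintro rfl
      exact hf0 (zero_pow hp.ne_zero)
    apply hx0
    rw [← hD, mk_eq_zero_iff]
    refine ⟨b, hb0, ?_⟩
    rw [divOf_pow] at hf
    ext v
    have h1 := DFunLike.congr_fun hf v
    rw [Finsupp.smul_apply, Finsupp.smul_apply, nsmul_eq_mul, nsmul_eq_mul] at h1
    exact (mul_left_cancel₀ (by exact_mod_cast hp.ne_zero) h1).symm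
  haveI : NeZero (p : K) := ⟨hpK⟩
  haveI : NeZero p := ⟨hp.ne_zero⟩
  obtain ⟨ζ, hζ⟩ := HasEnoughRootsOfUnity.exists_primitiveRoot K p
  obtain ⟨F', _, _, _, _, _, g, τ, hg, hτ⟩ := exists_kummer hp hζ hnp
  haveI : IsFF K F' := FunField.isFF_of_finite K F F'
  have hζ0 : ζ ≠ 0 := hζ.ne_zero hp.ne_zero
  have hg0 : g ≠ 0 := by
    rintro rfl
    rw [zero_pow hp.ne_zero] at hg
    exact hf0 ((map_eq_zero _).1 hg.symm)
  -- the divisor of `g`
  have hgdiv : (divOf g : Divisor K F') = Divisor.pullback F' (D : Divisor K F) := by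
    have h1 : p • (divOf g : Divisor K F') = p • Divisor.pullback F' (D : Divisor K F) := by
      rw [← divOf_pow, hg, ← pullback_divOf, hf, map_nsmul]
    ext w
    have h2 := DFunLike.congr_fun h1 w
    rw [Finsupp.smul_apply, Finsupp.smul_apply, nsmul_eq_mul, nsmul_eq_mul] at h2
    exact mul_left_cancel₀ (by exact_mod_cast hp.ne_zero) h2
  -- a general place
  set S : Finset (Place K F') := (D : Divisor K F).support.biUnion fun v => v.fiber F' with hS
  have hSmem : ∀ w : Place K F', w ∉ S ↔ (D : Divisor K F) (w.restrict F) = 0 := by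
    intro w
    rw [hS, Finset.mem_biUnion]
    constructor
    · intro h
      by_contra h'
      exact h ⟨w.restrict F, Finsupp.mem_support_iff.2 h', Place.mem_fiber.2 rfl⟩
    · rintro h ⟨v, hv, hw⟩
      rw [Place.mem_fiber] at hw
      rw [hw] at h
      exact Finsupp.mem_support_iff.1 hv h
  have hgS : ∀ w : Place K F', w ∉ S → w.ord g = 0 := by
    intro w hw
    rw [← divOf_apply, hgdiv, pullback_apply_eq_zero_iff]
    exact (hSmem w).1 hw
  haveI : Infinite (Place K F') := infinite_place
  obtain ⟨P, hP⟩ := Infinite.exists_notMem_finset S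
  set s : SemilinearAut K F' := ofAlgAut (τ.restrictScalars K) with hs
  have hsP : s • P ∉ S := by
    rw [hSmem, hs, restrict_smul]
    exact (hSmem P).1 hP
  -- the degree zero divisor `τP - P`
  set C₀ : Divisor K F' := Finsupp.single (s • P) 1 - Finsupp.single P 1 with hC₀
  have hC₀deg : C₀ ∈ Divisor.degZero (K := K) (F := F') := by
    rw [Divisor.mem_degZero, hC₀, map_sub, Divisor.degree_single, Divisor.degree_single,
      deg_eq_one_of_isFF, deg_eq_one_of_isFF, sub_self]
  obtain ⟨c', hc'⟩ := hdiv F' (Pic0.mk ⟨C₀, hC₀deg⟩)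
  obtain ⟨E, hE, hES⟩ := exists_rep c' S
  have h1 : Pic0.mk (n • E) = Pic0.mk ⟨C₀, hC₀deg⟩ := by
    rw [← hc', ← hE]; rfl
  obtain ⟨H, hH0, hH⟩ := (mk_eq_mk_iff _ _).1 h1
  have hH' : C₀ = n • (E : Divisor K F') + divOf H := hH
  have hHdiv : (divOf H : Divisor K F') = C₀ - n • (E : Divisor K F') := by
    rw [hH', add_sub_cancel_left]
  have hC₀S : ∀ w ∈ S, C₀ w = 0 := by
    intro w hw
    rw [hC₀, Finsupp.sub_apply, Finsupp.single_eq_of_ne, Finsupp.single_eq_of_ne, sub_zero]
    · rintro rfl; exact hP hw
    · rintro rfl; exact hsP hw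
  have hHS : ∀ w ∈ S, w.ord H = 0 := by
    intro w hw
    rw [← divOf_apply, hHdiv, Finsupp.sub_apply, Finsupp.smul_apply, hC₀S w hw, hES w hw,
      smul_zero, sub_zero]
  -- the class `y`
  have hN0 : Algebra.norm F H ≠ 0 := PushPull.norm_ne_zero hH0
  have hpC₀ : Divisor.pushforward F C₀ = 0 := by
    rw [hC₀, map_sub, Divisor.pushforward_single, Divisor.pushforward_single, inertiaDeg_eq_one,
      inertiaDeg_eq_one, hs, restrict_smul, sub_self]
  have hNdiv : (divOf (Algebra.norm F H) : Divisor K F) =
      n • (-(Divisor.pushforward F (E : Divisor K F'))) := by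
    rw [← pushforward_divOf hH0, hHdiv, map_sub, hpC₀, zero_sub, map_nsmul, smul_neg]
  have hdis : ∀ v : Place K F, (D : Divisor K F) v = 0 ∨
      (-(Divisor.pushforward F (E : Divisor K F'))) v = 0 := by
    intro v
    by_cases h : (D : Divisor K F) v = 0
    · exact Or.inl h
    · right
      rw [Finsupp.neg_apply, pushforward_apply_eq_zero, neg_zero]
      intro w hw
      apply hES
      by_contra hwS
      rw [hSmem, hw] at hwS
      exact h hwS
  have hfn : (divOf (f₁ ^ k) : Divisor K F) = n • (D : Divisor K F) := by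
    rw [divOf_pow, hf, hn, smul_smul, mul_comm]
  refine ⟨Pic0.mk (-(Pic0.pushforwardDegZeroHom F E)), ?_, ?_⟩
  · change Pic0.mk (n • (-(Pic0.pushforwardDegZeroHom F E))) = 0
    rw [mk_eq_zero_iff]
    exact ⟨_, hN0, hNdiv.symm⟩
  · have e1 := weil_eq_div (n := n) D (-(Pic0.pushforwardDegZeroHom F E)) (pow_ne_zero k hf0) hN0
      hfn hNdiv hdis
    change weil n (Pic0.mk D) (Pic0.mk (-(Pic0.pushforwardDegZeroHom F E))) =
      ev (f₁ ^ k) (-(Divisor.pushforward F (E : Divisor K F'))) /
        ev (Algebra.norm F H) (D : Divisor K F) at e1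
    have hgE : Dis g (E : Divisor K F') := by
      intro w hw
      apply hgS
      intro hwS
      exact hw (hES w hwS)
    have hgC : Dis g C₀ := by
      intro w hw
      apply hgS
      intro hwS
      exact hw (hC₀S w hwS)
    have hHg : Dis H (Divisor.pullback F' (D : Divisor K F)) := by
      intro w hw
      apply hHS
      by_contra hwS
      apply hw
      rw [pullback_apply_eq_zero_iff]
      exact (hSmem w).1 hwS
    -- the computation of `f` on the pushforward
    have e2 : ev (f₁ ^ k) (Divisor.pushforward F (E : Divisor K F')) =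
        ev g C₀ / ev (Algebra.norm F H) (D : Divisor K F) := by
      rw [← ev_algebraMap, map_pow, ← hg, ← pow_mul, ← hn, ev_pow hg0 hgE, ← ev_nsmul]
      have h2 : n • (E : Divisor K F') = C₀ - divOf H := by rw [hH', add_sub_cancel_right]
      rw [h2, ev_sub, weil_reciprocity hg0 hH0, hgdiv, ev_norm hH0 _ hHg]
      intro w
      by_cases hw : w ∈ S
      · exact Or.inr (hHS w hw)
      · exact Or.inl (hgS w hw)
    rw [← hD, e1, ev_neg, e2, inv_div, div_div, mul_comm, ← div_div, div_self',
      one_div, ne_eq, inv_eq_one]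
    -- the value of `g` on `τP - P`
    rw [hC₀, ev_sub, ev_single, ev_single, zpow_one, zpow_one, div_eq_one]
    intro h3
    have h4 := uval_smul s P g
    have h5 : s • g = algebraMap K F' ζ * g := hτ
    have h6 : Units.map (baseAut s).toMonoidHom (uval P g) = uval P g := by
      apply Units.ext
      rfl
    rw [h6, h5, uval_mul ((_root_.map_ne_zero _).2 hζ0) (ord_algebraMap _ _) hg0 (hgS _ hsP), h3] at h4
    have h7 : uval (s • P) (algebraMap K F' ζ) = 1 := mul_eq_right.1 h4
    have h8 := congrArg Units.val h7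
    rw [uval_algebraMap _ hζ0, Units.val_one] at h8
    exact hζ.ne_one hp.one_lt h8

/-- **Nondegeneracy of the Weil pairing**, assuming divisibility of the class groups of finite
extensions. -/
theorem weil_nondeg {n : ℕ} (hnK : (n : K) ≠ 0)
    (hdiv : ∀ (F' : Type u) [Field F'] [Algebra K F'] [IsFF K F'] (c : Pic0 K F'),
      ∃ c', n • c' = c) {x : Pic0 K F} (hx : n • x = 0)
    (h : ∀ y : Pic0 K F, n • y = 0 → weil n x y = 1) : x = 0 := by
  by_contra hx0
  set m := addOrderOf x with hm
  have hmn : m ∣ n := addOrderOf_dvd_of_nsmul_eq_zero hx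
  have hn0 : n ≠ 0 := by rintro rfl; exact hnK Nat.cast_zero
  have hm0 : m ≠ 0 := by
    rintro h0
    rw [h0] at hmn
    exact hn0 (zero_dvd_iff.1 hmn)
  have hm1 : m ≠ 1 := by
    intro h1
    apply hx0
    rw [← AddMonoid.addOrderOf_eq_one_iff]
    exact h1
  obtain ⟨p, hp, hpm⟩ := Nat.exists_prime_and_dvd hm1
  obtain ⟨m', hm'⟩ := hpm
  obtain ⟨k, hk⟩ := (Dvd.intro m' hm'.symm : p ∣ m).trans hmn
  have hpK : (p : K) ≠ 0 := by
    intro h0
    apply hnK
    rw [hk, Nat.cast_mul, h0, zero_mul]
  have hpx : p • (m' • x) = 0 := by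
    rw [smul_smul, ← hm', hm, addOrderOf_nsmul_eq_zero]
  have hx1 : m' • x ≠ 0 := by
    intro h0
    have h1 : m ∣ m' := addOrderOf_dvd_of_nsmul_eq_zero h0
    have hm'0 : m' ≠ 0 := by
      rintro rfl
      exact hm0 (by rw [hm', mul_zero])
    have h2 := Nat.le_of_dvd (Nat.pos_of_ne_zero hm'0) h1
    rw [hm'] at h2
    have h3 := hp.two_le
    nlinarith [Nat.pos_of_ne_zero hm'0]
  obtain ⟨y, hy, hy1⟩ := exists_weil_ne_one_of_prime hp hk hpK hdiv hpx hx1
  apply hy1
  rw [weil_nsmul_left hx hy, h y hy, one_pow]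

end Nondeg

end Fermat.Agent.WeilPairing
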