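import Fermat.Agent.PushPull.NormFormula
import Fermat.Agent.FunField.Kaehler
import Fermat.Agent.FunField.Approx
import Fermat.Agent.FunField.Extension
import Fermat.Agent.S27C.Eval

/-!
# Values of functions at places and norms

`K` algebraically closed.  The value at `v` of the norm of a function `g` without zeros and poles
above `v` is `∏_{w | v} g(w)^{e_w}`.
-/

set_option autoImplicit false

noncomputable section

open AlgebraicCurve Polynomial

namespace Fermat.Agent.WeilPairing

open Fermat.Agent.FunField Fermat.Agent.FunField.PlaceLemmas Fermat.Agent.S27C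
open Fermat.Agent.PushPull hiding deg_eq_one

section Basic

variable {K F : Type*} [Field K] [Field F] [Algebra K F] [IsAlgClosed K] [IsFF K F]

theorem isCurveOver : IsCurveOver K F := isCurveOver_of_isFF

attribute [local instance] isCurveOver

theorem deg_eq_one_of_isFF (v : Place K F) : v.deg = 1 := IsCurveOver.deg_eq_one_of_isAlgClosed v

theorem mem_of_ord_eq_zero {v : Place K F} {f : F} (h : v.ord f = 0) :
    f ∈ v.toValuationSubring := S27C.mem_of_ord_nonneg h.ge

theorem val_ne_zero {v : Place K F} {f : F} (hf0 : f ≠ 0) (h : v.ord f = 0) : val v f ≠ 0 := by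
  intro h0
  rw [val_eq_zero_iff_ord v (mem_of_ord_eq_zero h)] at h0
  rcases h0 with h0 | h0
  · exact hf0 h0
  · omega

theorem val_pow (v : Place K F) {f : F} (hf : f ∈ v.toValuationSubring) (n : ℕ) :
    val v (f ^ n) = val v f ^ n := by
  have := map_pow (evalHom v) ⟨f, hf⟩ n
  simpa using this

theorem val_zpow {v : Place K F} {f : F} (h : v.ord f = 0) (n : ℤ) :
    val v (f ^ n) = val v f ^ n := by
  rcases eq_or_ne f 0 with rfl | hf0
  · rcases eq_or_ne n 0 with rfl | hn
    · simp
    · rw [zero_zpow n hn, val_zero, zero_zpow n hn]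
  rcases Int.eq_nat_or_neg n with ⟨m, hm | hm⟩
  · rw [hm, zpow_natCast, zpow_natCast, val_pow v (mem_of_ord_eq_zero h)]
  · rw [hm, zpow_neg, zpow_neg, zpow_natCast, zpow_natCast,
      val_inv v (pow_mem (mem_of_ord_eq_zero h) _), val_pow v (mem_of_ord_eq_zero h)]
    rw [val_pow v (mem_of_ord_eq_zero h)]
    exact pow_ne_zero _ (val_ne_zero hf0 h)

theorem ord_zpow_eq_zero {v : Place K F} {f : F} (h : v.ord f = 0) (n : ℤ) :
    v.ord (f ^ n) = 0 := by rw [v.ord_zpow, h, mul_zero]

theorem ord_prod_eq_zero {ι : Type*} {v : Place K F} (s : Finset ι) (f : ι → F)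
    (hf : ∀ i ∈ s, f i ≠ 0 ∧ v.ord (f i) = 0) :
    (∏ i ∈ s, f i) ≠ 0 ∧ v.ord (∏ i ∈ s, f i) = 0 := by
  classical
  induction s using Finset.induction_on with
  | empty => simp
  | insert a s ha ih =>
    have h1 := hf a (Finset.mem_insert_self _ _)
    have h2 := ih fun i hi => hf i (Finset.mem_insert_of_mem hi)
    rw [Finset.prod_insert ha]
    exact ⟨mul_ne_zero h1.1 h2.1, by rw [v.ord_mul h1.1 h2.1, h1.2, h2.2, add_zero]⟩

theorem val_prod {ι : Type*} {v : Place K F} (s : Finset ι) (f : ι → F)
    (hf : ∀ i ∈ s, f i ≠ 0 ∧ v.ord (f i) = 0) :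
    val v (∏ i ∈ s, f i) = ∏ i ∈ s, val v (f i) := by
  classical
  induction s using Finset.induction_on with
  | empty => simp
  | insert a s ha ih =>
    have h1 := hf a (Finset.mem_insert_self _ _)
    have h2 := ord_prod_eq_zero (v := v) s f fun i hi => hf i (Finset.mem_insert_of_mem hi)
    rw [Finset.prod_insert ha, Finset.prod_insert ha, val_mul v (mem_of_ord_eq_zero h1.2)
      (mem_of_ord_eq_zero h2.2), ih fun i hi => hf i (Finset.mem_insert_of_mem hi)]

theorem val_eq_of_ord_sub {v : Place K F} {f : F} {c : K}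
    (h : f = algebraMap K F c ∨ 0 < v.ord (f - algebraMap K F c)) : val v f = c := by
  apply val_eq_of
  rw [adic_lt_one_iff, sub_eq_zero]
  exact h

end Basic

section Norm

variable {K F F' : Type*} [Field K] [Field F] [Field F'] [Algebra K F] [Algebra K F']
  [Algebra F F'] [IsScalarTower K F F'] [Module.Finite F F']
  [IsAlgClosed K] [IsFF K F] [IsFF K F']

attribute [local instance] isCurveOver

variable (v : Place K F)

/-- the value of a function of the base at a place above -/
theorem val_algebraMap_restrict (w : Place K F') {f : F}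
    (hf : f ∈ (w.restrict F).toValuationSubring) :
    val w (algebraMap F F' f) = val (w.restrict F) f := by
  apply val_eq_of_ord_sub
  have h := val_spec (w.restrict F) hf
  rw [adic_lt_one_iff, sub_eq_zero] at h
  rcases h with h | h
  · left
    conv_lhs => rw [h]
    rw [← IsScalarTower.algebraMap_apply]
  · right
    rw [IsScalarTower.algebraMap_apply K F F', ← map_sub, w.ord_restrict]
    have := w.ramificationIndex_pos (F := F)
    positivity

open IntermediateField in
omit [Algebra K F] [Algebra K F'] [IsScalarTower K F F'] [IsAlgClosed K] [IsFF K F] [IsFF K F'] in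
theorem norm_sub_eq (η : F') (y : F) :
    Algebra.norm F (algebraMap F F' y - η) =
      ((minpoly F η).eval y) ^ (Module.finrank F⟮η⟯ F') := by
  set x := η - algebraMap F F' y with hx
  have hint : IsIntegral F η := Algebra.IsIntegral.isIntegral η
  have hintx : IsIntegral F x := Algebra.IsIntegral.isIntegral x
  have hmin : minpoly F x = (minpoly F η).comp (X + C y) := minpoly.sub_algebraMap _ _
  have hadj : F⟮x⟯ = F⟮η⟯ := by
    apply le_antisymm
    · rw [adjoin_simple_le_iff]
      exact sub_mem (mem_adjoin_simple_self F η) (IntermediateField.algebraMap_mem _ _)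
    · rw [adjoin_simple_le_iff]
      have : η = x + algebraMap F F' y := by rw [hx]; ring
      rw [this]
      exact add_mem (mem_adjoin_simple_self F x) (IntermediateField.algebraMap_mem _ _)
  have hfin : Module.finrank F⟮x⟯ F' = Module.finrank F⟮η⟯ F' := by rw [hadj]
  have h1 : Algebra.norm F x = ((-1) ^ (minpoly F η).natDegree * (minpoly F η).eval y) ^
      (Module.finrank F⟮η⟯ F') := by
    rw [Algebra.norm_eq_norm_adjoin, hfin]
    congr 1
    have h2 := Algebra.PowerBasis.norm_gen_eq_coeff_zero_minpoly (adjoin.powerBasis hintx)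
    have h3 : (adjoin.powerBasis hintx).gen = AdjoinSimple.gen F x := adjoin.powerBasis_gen hintx
    rw [h3, minpoly_gen] at h2
    rw [h2, hmin, coeff_zero_eq_eval_zero, eval_comp]
    simp [hmin, natDegree_comp]
  have h4 : algebraMap F F' y - η = algebraMap F F' (-1) * x := by rw [hx]; simp
  rw [h4, map_mul, Algebra.norm_algebraMap, h1, mul_pow, ← mul_assoc, ← pow_mul,
    ← adjoin.finrank hint, Module.finrank_mul_finrank, ← mul_pow]
  simp

open IntermediateField in
/-- the characteristic polynomial of an element integral above `v`. -/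
def intPoly (η : F') : (v.toValuationSubring)[X] :=
  (minpoly v.toValuationSubring η) ^ (Module.finrank F⟮η⟯ F')

/-- the reduction of the characteristic polynomial -/
def resPoly (η : F') : K[X] := (intPoly v η).map (evalHom v : v.toValuationSubring →+* K)

variable {v}

omit [IsAlgClosed K] [IsFF K F] in
theorem isIntegral_of_mem {η : F'}
    (hη : ∀ w : Place K F', w.restrict F = v → η ∈ w.toValuationSubring) :
    IsIntegral v.toValuationSubring η :=
  isIntegral_of_forall_ord_nonneg v fun w hw => by
    rcases (S27C.mem_iff_ord w η).1 (hη w hw) with h | h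
    · rw [h]; simp
    · exact h

omit [IsAlgClosed K] [IsFF K F] in
theorem norm_sub_eq_eval {η : F'}
    (hη : ∀ w : Place K F', w.restrict F = v → η ∈ w.toValuationSubring)
    (y : v.toValuationSubring) :
    Algebra.norm F (algebraMap F F' (y : F) - η) = (((intPoly v η).eval y : v.toValuationSubring) : F) := by
  have hmin : minpoly F η = (minpoly v.toValuationSubring η).map (algebraMap v.toValuationSubring F) :=
    minpoly.isIntegrallyClosed_eq_field_fractions' F (isIntegral_of_mem hη)
  rw [norm_sub_eq, hmin, intPoly, eval_pow]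
  have h1 : (y : F) = algebraMap v.toValuationSubring F y := rfl
  rw [h1, eval_map_algebraMap, aeval_algebraMap_apply]
  simp

theorem val_norm_sub {η : F'}
    (hη : ∀ w : Place K F', w.restrict F = v → η ∈ w.toValuationSubring)
    (y : v.toValuationSubring) :
    val v (Algebra.norm F (algebraMap F F' (y : F) - η)) = (resPoly v η).eval (val v (y : F)) := by
  rw [norm_sub_eq_eval hη, ← evalHom_apply, resPoly]
  have h1 : val v (y : F) = (evalHom v : v.toValuationSubring →+* K) y := rfl
  rw [h1, eval_map, eval₂_hom]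
  rfl

theorem val_norm_sub_algebraMap {η : F'}
    (hη : ∀ w : Place K F', w.restrict F = v → η ∈ w.toValuationSubring) (c : K) :
    val v (Algebra.norm F (algebraMap K F' c - η)) = (resPoly v η).eval c := by
  have h := val_norm_sub hη (⟨algebraMap K F c, v.algebraMap_mem' c⟩ : v.toValuationSubring)
  rw [val_algebraMap] at h
  rw [← h, IsScalarTower.algebraMap_apply K F F']

omit [IsAlgClosed K] [IsFF K F] in
theorem intPoly_monic {η : F'}
    (hη : ∀ w : Place K F', w.restrict F = v → η ∈ w.toValuationSubring) : (intPoly v η).Monic :=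
  (minpoly.monic (isIntegral_of_mem hη)).pow _

theorem resPoly_monic {η : F'}
    (hη : ∀ w : Place K F', w.restrict F = v → η ∈ w.toValuationSubring) : (resPoly v η).Monic :=
  (intPoly_monic hη).map _

open IntermediateField in
theorem natDegree_resPoly {η : F'}
    (hη : ∀ w : Place K F', w.restrict F = v → η ∈ w.toValuationSubring) :
    (resPoly v η).natDegree = Module.finrank F F' := by
  have hmin : minpoly F η = (minpoly v.toValuationSubring η).map (algebraMap v.toValuationSubring F) :=
    minpoly.isIntegrallyClosed_eq_field_fractions' F (isIntegral_of_mem hη)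
  have hmon := minpoly.monic (isIntegral_of_mem hη)
  have hint : IsIntegral F η := Algebra.IsIntegral.isIntegral η
  rw [resPoly, (intPoly_monic hη).natDegree_map, intPoly, hmon.natDegree_pow]
  have h2 : (minpoly v.toValuationSubring η).natDegree = (minpoly F η).natDegree := by
    rw [hmin, hmon.natDegree_map]
  rw [h2, ← adjoin.finrank hint, mul_comm, Module.finrank_mul_finrank]

theorem exists_restrict_eq' : ∃ w : Place K F', w.restrict F = v :=
  Fermat.Agent.FunField.exists_restrict_eq v

theorem resPoly_eval_eq_zero_iff {η : F'}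
    (hη : ∀ w : Place K F', w.restrict F = v → η ∈ w.toValuationSubring) (c : K) :
    (resPoly v η).eval c = 0 ↔ ∃ w : Place K F', w.restrict F = v ∧ val w η = c := by
  rw [← val_norm_sub_algebraMap hη]
  have hmem : ∀ w : Place K F', w.restrict F = v →
      algebraMap K F' c - η ∈ w.toValuationSubring := fun w hw =>
    sub_mem (w.algebraMap_mem' c) (hη w hw)
  have hval : ∀ w : Place K F', w.restrict F = v →
      val w (algebraMap K F' c - η) = c - val w η := fun w hw => by
    rw [val_sub w (w.algebraMap_mem' c) (hη w hw), val_algebraMap]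
  constructor
  · intro h
    by_contra hcon
    push Not at hcon
    have h1 : ∀ w : Place K F', w.restrict F = v →
        (algebraMap K F' c - η ≠ 0 ∧ w.ord (algebraMap K F' c - η) = 0) := fun w hw =>
      ord_eq_zero_of_val_ne w (hmem w hw) (by
        rw [hval w hw]
        exact sub_ne_zero.2 (hcon w hw).symm)
    have h2 := norm_ord_eq_zero v (f := algebraMap K F' c - η) fun w hw => (h1 w hw).2
    obtain ⟨w, hw⟩ := exists_restrict_eq' (F' := F') (v := v)
    exact val_ne_zero (norm_ne_zero (h1 w hw).1) h2 h
  · rintro ⟨w, hw, hwc⟩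
    rcases eq_or_ne (algebraMap K F' c - η) 0 with h0 | h0
    · rw [h0, Algebra.norm_zero, val_zero]
    · apply val_of_ord_pos
      apply norm_ord_pos v h0 (fun w' hw' => ?_) w hw
      · have := (S27C.mem_iff_ord w _).1 (hmem w hw)
        have h3 := hval w hw
        rw [hwc, sub_self, val_eq_zero_iff_ord w (hmem w hw)] at h3
        exact h3.resolve_left h0
      · exact ((S27C.mem_iff_ord w' _).1 (hmem w' hw')).resolve_left h0

/-- norm of a function with all values `1` above `v` -/
theorem val_norm_eq_one {η : F'}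
    (hη : ∀ w : Place K F', w.restrict F = v → η ∈ w.toValuationSubring)
    (h1 : ∀ w : Place K F', w.restrict F = v → val w η = 1) :
    val v (Algebra.norm F η) = 1 := by
  have hsplit : (resPoly v η).Splits := IsAlgClosed.splits _
  have hroots : (resPoly v η).roots = Multiset.replicate (Module.finrank F F') 1 := by
    rw [Multiset.eq_replicate]
    refine ⟨?_, fun b hb => ?_⟩
    · rw [← natDegree_resPoly hη]
      exact hsplit.natDegree_eq_card_roots.symm
    · have hb' := (mem_roots (resPoly_monic hη).ne_zero).1 hb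
      obtain ⟨w, hw, hwb⟩ := (resPoly_eval_eq_zero_iff hη b).1 hb'
      rw [← hwb, h1 w hw]
  have hP : resPoly v η = (X - C 1) ^ (Module.finrank F F') := by
    rw [hsplit.eq_prod_roots_of_monic (resPoly_monic hη), hroots]
    simp
  have h2 := val_norm_sub_algebraMap hη 0
  rw [hP, map_zero, zero_sub] at h2
  have h3 : -η = algebraMap F F' (-1) * η := by simp
  rw [h3, map_mul, Algebra.norm_algebraMap] at h2
  have hη0 : ∀ w : Place K F', w.restrict F = v → (η ≠ 0 ∧ w.ord η = 0) := fun w hw =>
    ord_eq_zero_of_val_ne w (hη w hw) (by rw [h1 w hw]; exact one_ne_zero)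
  have hord := norm_ord_eq_zero v (f := η) fun w hw => (hη0 w hw).2
  have hm1 : ((-1 : F) ^ (Module.finrank F F')) = algebraMap K F ((-1) ^ (Module.finrank F F')) := by
    simp
  rw [hm1, val_mul v (v.algebraMap_mem' _) (mem_of_ord_eq_zero hord), val_algebraMap] at h2
  simp only [eval_pow, eval_sub, eval_X, eval_C, zero_sub] at h2
  have h4 : ((-1 : K) ^ (Module.finrank F F')) ≠ 0 := pow_ne_zero _ (by simp)
  exact mul_left_cancel₀ h4 (h2.trans (mul_one _).symm)

/-- A polynomial lemma over the discrete valuation ring at `v`. -/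
theorem le_of_forall_ord_eval (P : (v.toValuationSubring)[X]) {k : ℕ}
    (hk : val v ((P.coeff k : v.toValuationSubring) : F) ≠ 0) {π : v.toValuationSubring}
    (hπ : v.ord (π : F) = 1) {e : ℤ}
    (he : ∀ c : K, c ≠ 0 →
      v.ord ((P.eval (algebraMap K v.toValuationSubring c * π) : v.toValuationSubring) : F) = e) :
    e ≤ k := by
  have hπ0 : π ≠ 0 := by
    rintro rfl
    simp at hπ
  have hπval : val v (π : F) = 0 := val_of_ord_pos v (by rw [hπ]; exact one_pos)
  have hunit : ∀ a : v.toValuationSubring, val v (a : F) = 0 → π ∣ a := by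
    intro a ha
    rcases (val_eq_zero_iff_ord v a.2).1 ha with h | h
    · have : a = 0 := by exact_mod_cast h
      rw [this]; exact dvd_zero _
    · have ha0 : (a : F) ≠ 0 := by
        intro h0; rw [h0] at h; simp at h
      have hπ0' : (π : F) ≠ 0 := by exact_mod_cast hπ0
      refine ⟨⟨(a : F) / π, S27C.mem_of_ord_nonneg ?_⟩, ?_⟩
      · rw [ord_div v ha0 hπ0', hπ]; omega
      · apply Subtype.ext
        change (a : F) = (π : F) * ((a : F) / π)
        field_simp
  have hπnu : ¬ IsUnit π := by
    intro hu
    have h1 := v.ord_coe_unit hu.unit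
    rw [IsUnit.unit_spec, hπ] at h1
    exact one_ne_zero h1
  set Q : (v.toValuationSubring)[X] := P.comp (C π * X) with hQ
  have hQc : ∀ j, Q.coeff j = P.coeff j * π ^ j := fun j => comp_C_mul_X_coeff
  have hPk : P.coeff k ≠ 0 := by
    intro h; rw [h] at hk; simp at hk
  have hQ0 : Q ≠ 0 := by
    intro h
    have h1 := hQc k
    rw [h, coeff_zero] at h1
    exact mul_ne_zero hPk (pow_ne_zero _ hπ0) h1.symm
  have hCπ : ¬ IsUnit (C π : (v.toValuationSubring)[X]) := by
    rw [isUnit_C]; exact hπnu
  obtain ⟨Q₁, hQ₁, hndvd⟩ :=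
    (FiniteMultiplicity.of_not_isUnit hCπ hQ0).exists_eq_pow_mul_and_not_dvd
  set m := multiplicity (C π) Q with hm
  -- `m ≤ k`
  have hmk : m ≤ k := by
    have h1 : π ^ m ∣ P.coeff k * π ^ k := by
      rw [← hQc k, hQ₁, ← C_pow, coeff_C_mul]
      exact dvd_mul_right _ _
    obtain ⟨b, hb⟩ := h1
    have h2 : v.ord ((P.coeff k * π ^ k : v.toValuationSubring) : F) = k := by
      push_cast
      rw [v.ord_mul (by exact_mod_cast hPk) (pow_ne_zero _ (by exact_mod_cast hπ0)), ord_pow, hπ]
      have h3 : v.ord ((P.coeff k : v.toValuationSubring) : F) = 0 :=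
        (ord_eq_zero_of_val_ne v (P.coeff k).2 hk).2
      rw [h3]; ring
    rw [hb] at h2
    push_cast at h2
    have hb0 : (b : F) ≠ 0 := by
      intro h
      have : b = 0 := by exact_mod_cast h
      rw [this, mul_zero] at hb
      exact mul_ne_zero hPk (pow_ne_zero _ hπ0) hb
    rw [v.ord_mul (pow_ne_zero _ (by exact_mod_cast hπ0)) hb0, ord_pow, hπ] at h2
    have h4 := ((S27C.mem_iff_ord v (b : F)).1 b.2).resolve_left hb0
    omega
  -- find `c`
  have hQ₁0 : Q₁.map (evalHom v : v.toValuationSubring →+* K) ≠ 0 := by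
    intro h
    apply hndvd
    rw [C_dvd_iff_dvd_coeff]
    intro j
    apply hunit
    have h1 := congrArg (fun q => q.coeff j) h
    simpa [coeff_map] using h1
  obtain ⟨c, hc⟩ : ∃ c : K, ¬ ((Q₁.map (evalHom v : v.toValuationSubring →+* K)) * X).eval c = 0 := by
    by_contra hcon
    push Not at hcon
    have h1 := Polynomial.funext (p := (Q₁.map (evalHom v : v.toValuationSubring →+* K)) * X)
      (q := 0) (fun c => by rw [hcon c, eval_zero])
    exact mul_ne_zero hQ₁0 X_ne_zero h1
  rw [eval_mul, eval_X, mul_eq_zero, not_or] at hc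
  have h5 := he c hc.2
  have h6 : P.eval (algebraMap K v.toValuationSubring c * π) = π ^ m * Q₁.eval (algebraMap K _ c) := by
    have h7 : Q.eval (algebraMap K v.toValuationSubring c) = π ^ m * Q₁.eval (algebraMap K _ c) := by
      rw [hQ₁, ← C_pow, eval_mul, eval_C]
    rw [← h7, hQ, eval_comp, eval_mul, eval_C, eval_X, mul_comm]
  have h8 : val v ((Q₁.eval (algebraMap K _ c) : v.toValuationSubring) : F) ≠ 0 := by
    have h9 : (Q₁.map (evalHom v : v.toValuationSubring →+* K)).eval c =
        val v ((Q₁.eval (algebraMap K v.toValuationSubring c) : v.toValuationSubring) : F) := by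
      have h10 : c = (evalHom v : v.toValuationSubring →+* K) (algebraMap K _ c) := by
        simp
      conv_lhs => rw [h10, eval_map, eval₂_hom]
      rfl
    rw [← h9]
    exact hc.1
  have h11 := ord_eq_zero_of_val_ne v (Q₁.eval (algebraMap K _ c)).2 h8
  rw [h6] at h5
  push_cast at h5
  rw [v.ord_mul (pow_ne_zero _ (by exact_mod_cast hπ0)) h11.1, ord_pow, hπ, h11.2] at h5
  omega

open Classical in
theorem exists_eta (w₀ : Place K F') (hw₀ : w₀.restrict F = v) :
    ∃ η : F', (∀ w : Place K F', w.restrict F = v → η ∈ w.toValuationSubring) ∧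
      (η = 0 ∨ (w₀.ramificationIndex F : ℤ) + 1 ≤ w₀.ord η) ∧
      (∀ w : Place K F', w.restrict F = v → w ≠ w₀ → val w η = -1) := by
  obtain ⟨η, hη⟩ := weak_approximation'
    (fun w : v.fiber F' => (w : Place K F')) Subtype.val_injective
    (fun w => if (w : Place K F') = w₀ then 0 else -1)
    (fun w => (w₀.ramificationIndex F : ℤ) + 1)
  have h0 : η = 0 ∨ (w₀.ramificationIndex F : ℤ) + 1 ≤ w₀.ord η := by
    have := hη ⟨w₀, Place.mem_fiber.mpr hw₀⟩
    simpa using this
  have h1 : ∀ w : Place K F', w.restrict F = v → w ≠ w₀ → val w η = -1 := by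
    intro w hw hne
    have h2 := hη ⟨w, Place.mem_fiber.mpr hw⟩
    simp only [if_neg hne] at h2
    apply val_eq_of_ord_sub
    have h3 : algebraMap K F' (-1) = -1 := by simp
    rw [h3]
    refine h2.imp id fun h => ?_
    have := w₀.ramificationIndex_pos (F := F)
    omega
  refine ⟨η, fun w hw => ?_, h0, h1⟩
  by_cases hne : w = w₀
  · subst hne
    rw [S27C.mem_iff_ord]
    refine h0.imp id fun h => ?_
    omega
  · by_contra hcon
    have h2 := h1 w hw hne
    unfold val at h2
    rw [dif_neg hcon] at h2
    exact one_ne_zero (neg_eq_zero.mp h2.symm)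

theorem resPoly_eq {η : F'} (w₀ : Place K F')
    (hη : ∀ w : Place K F', w.restrict F = v → η ∈ w.toValuationSubring)
    (h0 : val w₀ η = 0) (h1 : ∀ w : Place K F', w.restrict F = v → w ≠ w₀ → val w η = -1) :
    ∃ k : ℕ, k ≤ Module.finrank F F' ∧
      resPoly v η = X ^ k * (X + 1) ^ (Module.finrank F F' - k) := by
  classical
  have hsplit : (resPoly v η).Splits := IsAlgClosed.splits _
  have hcard : (resPoly v η).roots.card = Module.finrank F F' := by
    rw [← natDegree_resPoly hη]
    exact hsplit.natDegree_eq_card_roots.symm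
  have hroots : ∀ b ∈ (resPoly v η).roots, b = 0 ∨ b = -1 := by
    intro b hb
    have hb' := (mem_roots (resPoly_monic hη).ne_zero).1 hb
    obtain ⟨w, hw, hwb⟩ := (resPoly_eval_eq_zero_iff hη b).1 hb'
    by_cases hne : w = w₀
    · left; rw [← hwb, hne, h0]
    · right; rw [← hwb, h1 w hw hne]
  set R := (resPoly v η).roots with hR
  have hdecomp : R = Multiset.replicate (R.count 0) 0 + Multiset.replicate (R.card - R.count 0) (-1) := by
    have h2 : R = R.filter (· = 0) + R.filter (fun b => ¬ (b = 0)) :=
      (Multiset.filter_add_not _ _).symm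
    have h3 : R.filter (· = 0) = Multiset.replicate (R.count 0) 0 := Multiset.filter_eq' R 0
    have h4 : R.filter (fun b => ¬ (b = 0)) = Multiset.replicate (R.card - R.count 0) (-1) := by
      rw [Multiset.eq_replicate]
      constructor
      · have h5 := congrArg Multiset.card h2
        rw [Multiset.card_add, h3, Multiset.card_replicate] at h5
        omega
      · intro b hb
        rw [Multiset.mem_filter] at hb
        exact (hroots b hb.1).resolve_left hb.2
    conv_lhs => rw [h2, h3, h4]
  refine ⟨R.count 0, hcard ▸ Multiset.count_le_card _ _, ?_⟩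
  rw [hsplit.eq_prod_roots_of_monic (resPoly_monic hη), ← hR, ← hcard]
  conv_lhs => rw [hdecomp]
  rw [Multiset.map_add, Multiset.map_replicate, Multiset.map_replicate, Multiset.prod_add,
    Multiset.prod_replicate, Multiset.prod_replicate]
  simp

theorem exists_exponent (w₀ : Place K F') (hw₀ : w₀.restrict F = v) :
    ∃ k : ℕ, (w₀.ramificationIndex F) ≤ k ∧ ∀ a : K, a ≠ 0 → ∃ g : F', g ≠ 0 ∧
      (∀ w : Place K F', w.restrict F = v → w.ord g = 0) ∧ val w₀ g = a ∧
      (∀ w : Place K F', w.restrict F = v → w ≠ w₀ → val w g = 1) ∧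
      val v (Algebra.norm F g) = a ^ k := by
  obtain ⟨η, hη, h0, h1⟩ := exists_eta w₀ hw₀
  have hepos := w₀.ramificationIndex_pos (F := F)
  have h0' : val w₀ η = 0 := by
    apply val_eq_of_ord_sub
    rw [map_zero, sub_zero]
    exact h0.imp id fun h => by omega
  obtain ⟨k, hkn, hk⟩ := resPoly_eq w₀ hη h0' h1
  have hmem : ∀ (c : K) (w : Place K F'), w.restrict F = v →
      algebraMap K F' c - η ∈ w.toValuationSubring := fun c w hw =>
    sub_mem (w.algebraMap_mem' c) (hη w hw)
  have hval : ∀ (c : K) (w : Place K F'), w.restrict F = v →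
      val w (algebraMap K F' c - η) = c - val w η := fun c w hw => by
    rw [val_sub w (w.algebraMap_mem' c) (hη w hw), val_algebraMap]
  refine ⟨k, ?_, ?_⟩
  · -- the order argument
    obtain ⟨t, ht0, ht⟩ := exists_ord_eq_one v
    have htm : t ∈ v.toValuationSubring := S27C.mem_of_ord_nonneg (by rw [ht]; exact zero_le_one)
    have hkc : val v (((intPoly v η).coeff k : v.toValuationSubring) : F) ≠ 0 := by
      have h2 : (resPoly v η).coeff k = 1 := by
        rw [hk, coeff_X_pow_mul', if_pos le_rfl, Nat.sub_self, coeff_zero_eq_eval_zero]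
        simp
      have h3 : (resPoly v η).coeff k = val v (((intPoly v η).coeff k : v.toValuationSubring) : F) := by
        rw [resPoly, coeff_map]; rfl
      rw [← h3, h2]
      exact one_ne_zero
    have h4 := le_of_forall_ord_eval (v := v) (intPoly v η) hkc (π := ⟨t, htm⟩) ht
      (e := (w₀.ramificationIndex F : ℤ)) (fun c hc => by
        rw [← norm_sub_eq_eval hη]
        set y : F' := algebraMap F F' (((algebraMap K v.toValuationSubring c * ⟨t, htm⟩ :
          v.toValuationSubring) : F)) with hy
        have hy' : y = algebraMap K F' c * algebraMap F F' t := by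
          rw [hy, IsScalarTower.algebraMap_apply K F F', ← map_mul]
          rfl
        have hy0 : y ≠ 0 := by
          rw [hy']
          exact mul_ne_zero (by simpa using hc) (by simpa using ht0)
        have hyord : ∀ w : Place K F', w.restrict F = v → w.ord y = w.ramificationIndex F := by
          intro w hw
          rw [hy', w.ord_mul (by simpa using hc) (by simpa using ht0), ord_algebraMap, w.ord_restrict,
            hw, ht]
          ring
        have hg1 : w₀.ord (y - η) = w₀.ramificationIndex F := by
          rw [sub_eq_add_neg, ord_add_eq_of_lt w₀ hy0, hyord w₀ hw₀]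
          rw [hyord w₀ hw₀, ord_neg]
          refine h0.imp (fun h => by rw [h, neg_zero]) fun h => by omega
        have hg2 : ∀ w : Place K F', w.restrict F = v → w ≠ w₀ →
            (y - η ≠ 0 ∧ w.ord (y - η) = 0) := by
          intro w hw hne
          have hym : y ∈ w.toValuationSubring := S27C.mem_of_ord_nonneg (by rw [hyord w hw]; omega)
          apply ord_eq_zero_of_val_ne w (sub_mem hym (hη w hw))
          have hwpos := w.ramificationIndex_pos (F := F)
          rw [val_sub w hym (hη w hw), h1 w hw hne, val_of_ord_pos w (by rw [hyord w hw]; omega)]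
          simp
        have hg0 : y - η ≠ 0 := by
          intro h
          rw [h, w₀.ord_zero] at hg1
          omega
        rw [PushPull.ord_norm v hg0, Finset.sum_eq_single w₀, hg1]
        · intro w hw hne
          exact (hg2 w (Place.mem_fiber.mp hw) hne).2
        · intro h
          exact absurd (Place.mem_fiber.mpr hw₀) h)
    exact_mod_cast h4
  · intro a ha
    by_cases ha1 : a = 1
    · subst ha1
      exact ⟨1, one_ne_zero, fun w _ => w.ord_one, val_one _, fun w _ _ => val_one _, by
        rw [map_one, val_one, one_pow]⟩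
    set y : K := a / (1 - a) with hy
    have h1a : (1 - a) ≠ 0 := sub_ne_zero.2 (Ne.symm ha1)
    have hy1 : y + 1 = 1 / (1 - a) := by rw [hy]; field_simp; ring
    have hy10 : y + 1 ≠ 0 := by rw [hy1]; exact div_ne_zero one_ne_zero h1a
    have hy0 : y ≠ 0 := div_ne_zero ha h1a
    have hyy : y * (y + 1)⁻¹ = a := by rw [hy1, hy]; field_simp
    set u : F' := algebraMap K F' y - η with hu
    have hu0 : u ≠ 0 ∧ w₀.ord u = 0 := ord_eq_zero_of_val_ne w₀ (hmem y w₀ hw₀) (by
      rw [hval y w₀ hw₀, h0', sub_zero]; exact hy0)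
    have huv : ∀ w : Place K F', w.restrict F = v → w ≠ w₀ → val w u = y + 1 := by
      intro w hw hne
      rw [hval y w hw, h1 w hw hne]; ring
    have huo : ∀ w : Place K F', w.restrict F = v → w.ord u = 0 := by
      intro w hw
      by_cases hne : w = w₀
      · rw [hne]; exact hu0.2
      · exact (ord_eq_zero_of_val_ne w (hmem y w hw) (by rw [huv w hw hne]; exact hy10)).2
    have hNu := val_norm_sub_algebraMap hη y
    rw [hk] at hNu
    simp only [eval_mul, eval_pow, eval_X, eval_add, eval_one] at hNu
    have hNuo := norm_ord_eq_zero v huo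
    have hz : algebraMap K F' (y + 1)⁻¹ ≠ 0 := (_root_.map_ne_zero _).2 (inv_ne_zero hy10)
    refine ⟨u * algebraMap K F' (y + 1)⁻¹, mul_ne_zero hu0.1 hz, ?_, ?_, ?_, ?_⟩
    · intro w hw
      rw [w.ord_mul hu0.1 hz, huo w hw, ord_algebraMap, add_zero]
    · rw [val_mul w₀ (mem_of_ord_eq_zero hu0.2) (w₀.algebraMap_mem' _), val_algebraMap,
        hval y w₀ hw₀, h0', sub_zero, hyy]
    · intro w hw hne
      rw [val_mul w (mem_of_ord_eq_zero (huo w hw)) (w.algebraMap_mem' _), val_algebraMap,
        huv w hw hne, mul_inv_cancel₀ hy10]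
    · rw [map_mul, IsScalarTower.algebraMap_apply K F F', Algebra.norm_algebraMap,
        ← map_pow, val_mul v (mem_of_ord_eq_zero hNuo) (v.algebraMap_mem' _), val_algebraMap, hNu,
        ← hyy, mul_pow, mul_assoc, ← Nat.sub_add_cancel hkn]
      rw [Nat.add_sub_cancel, pow_add]
      congr 1
      rw [← mul_assoc, ← mul_pow, mul_inv_cancel₀ hy10, one_pow, one_mul]

/-- **Value of a norm.** -/
theorem val_norm (v : Place K F) {g : F'} (hg0 : g ≠ 0)
    (hg : ∀ w : Place K F', w.restrict F = v → w.ord g = 0) :
    val v (Algebra.norm F g) = ∏ w ∈ v.fiber F', val w g ^ (w.ramificationIndex F) := by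
  classical
  have hex : ∀ w₀ : Place K F', ∃ k : ℕ, w₀.restrict F = v →
      ((w₀.ramificationIndex F) ≤ k ∧ ∀ a : K, a ≠ 0 → ∃ g : F', g ≠ 0 ∧
      (∀ w : Place K F', w.restrict F = v → w.ord g = 0) ∧ val w₀ g = a ∧
      (∀ w : Place K F', w.restrict F = v → w ≠ w₀ → val w g = 1) ∧
      val v (Algebra.norm F g) = a ^ k) := by
    intro w₀
    by_cases h : w₀.restrict F = v
    · obtain ⟨k, hk⟩ := exists_exponent w₀ h
      exact ⟨k, fun _ => hk⟩
    · exact ⟨0, fun h' => absurd h' h⟩
  choose k hk using hex
  -- the formula with exponents `k`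
  have key : ∀ g : F', g ≠ 0 → (∀ w : Place K F', w.restrict F = v → w.ord g = 0) →
      val v (Algebra.norm F g) = ∏ w ∈ v.fiber F', val w g ^ (k w) := by
    intro g hg0 hg
    have hex2 : ∀ w₀ : Place K F', ∃ g' : F', w₀.restrict F = v → (g' ≠ 0 ∧
      (∀ w : Place K F', w.restrict F = v → w.ord g' = 0) ∧ val w₀ g' = val w₀ g ∧
      (∀ w : Place K F', w.restrict F = v → w ≠ w₀ → val w g' = 1) ∧
      val v (Algebra.norm F g') = val w₀ g ^ (k w₀)) := by
      intro w₀
      by_cases h : w₀.restrict F = v
      · obtain ⟨g', hg'⟩ := (hk w₀ h).2 (val w₀ g) (val_ne_zero hg0 (hg w₀ h))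
        exact ⟨g', fun _ => hg'⟩
      · exact ⟨0, fun h' => absurd h' h⟩
    choose G hG using hex2
    have hG' : ∀ w₀ ∈ v.fiber F', _ := fun w₀ h => hG w₀ (Place.mem_fiber.mp h)
    set h : F' := ∏ w₀ ∈ v.fiber F', G w₀ with hh
    have hho : ∀ w : Place K F', w.restrict F = v → (h ≠ 0 ∧ w.ord h = 0) := fun w hw =>
      ord_prod_eq_zero (v := w) _ _ fun w₀ hw₀ => ⟨(hG' w₀ hw₀).1, (hG' w₀ hw₀).2.1 w hw⟩
    obtain ⟨w₁, hw₁⟩ := exists_restrict_eq' (F' := F') (v := v)
    have hh0 := (hho w₁ hw₁).1
    have hhv : ∀ w : Place K F', w.restrict F = v → val w h = val w g := by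
      intro w hw
      rw [hh, val_prod _ _ fun w₀ hw₀ => ⟨(hG' w₀ hw₀).1, (hG' w₀ hw₀).2.1 w hw⟩,
        Finset.prod_eq_single w]
      · exact (hG w hw).2.2.1
      · intro w₀ hw₀ hne
        exact (hG' w₀ hw₀).2.2.2.1 w hw (Ne.symm hne)
      · intro hcon
        exact absurd (Place.mem_fiber.mpr hw) hcon
    have hq1 : ∀ w : Place K F', w.restrict F = v → g / h ∈ w.toValuationSubring := by
      intro w hw
      apply mem_of_ord_eq_zero
      rw [ord_div w hg0 hh0, hg w hw, (hho w hw).2, sub_zero]
    have hq2 : ∀ w : Place K F', w.restrict F = v → val w (g / h) = 1 := by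
      intro w hw
      rw [val_div w (mem_of_ord_eq_zero (hg w hw)) (mem_of_ord_eq_zero (hho w hw).2)
        (val_ne_zero hh0 (hho w hw).2), hhv w hw, div_self (val_ne_zero hg0 (hg w hw))]
    have hq := val_norm_eq_one hq1 hq2
    have hNh : val v (Algebra.norm F h) = ∏ w ∈ v.fiber F', val w g ^ (k w) := by
      rw [hh, map_prod, val_prod]
      · exact Finset.prod_congr rfl fun w hw => (hG' w hw).2.2.2.2
      · intro w hw
        exact ⟨norm_ne_zero (hG' w hw).1, norm_ord_eq_zero v (hG' w hw).2.1⟩
    have h3 : Algebra.norm F g = Algebra.norm F (g / h) * Algebra.norm F h := by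
      rw [← map_mul, div_mul_cancel₀ _ hh0]
    rw [h3, val_mul v, hq, one_mul, hNh]
    · exact mem_of_ord_eq_zero (norm_ord_eq_zero v fun w hw => by
        rw [ord_div w hg0 hh0, hg w hw, (hho w hw).2, sub_zero])
    · exact mem_of_ord_eq_zero (norm_ord_eq_zero v fun w hw => (hho w hw).2)
  -- comparison of the exponents
  have hsum : Module.finrank F F' = ∑ w ∈ v.fiber F', k w := by
    have h1 : ∀ c : K, c ≠ 0 → c ^ (Module.finrank F F') = c ^ (∑ w ∈ v.fiber F', k w) := by
      intro c hc
      have h2 := key (algebraMap K F' c) (by simpa using hc) fun w _ => ord_algebraMap w c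
      rw [IsScalarTower.algebraMap_apply K F F', Algebra.norm_algebraMap, ← map_pow,
        val_algebraMap] at h2
      rw [h2, ← Finset.prod_pow_eq_pow_sum]
      refine Finset.prod_congr rfl fun w _ => ?_
      rw [← IsScalarTower.algebraMap_apply, val_algebraMap]
    have h2 : (X : K[X]) * X ^ (Module.finrank F F') = X * X ^ (∑ w ∈ v.fiber F', k w) := by
      apply Polynomial.funext
      intro c
      by_cases hc : c = 0
      · simp [hc]
      · simp only [eval_mul, eval_X, eval_pow]
        rw [h1 c hc]
    have h3 := congrArg natDegree h2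
    rw [← pow_succ', ← pow_succ', natDegree_X_pow, natDegree_X_pow] at h3
    omega
  have hfi : ∑ w ∈ v.fiber F', w.ramificationIndex F = Module.finrank F F' := by
    have h2 := (PushPull.fundamentalIdentity K F F').sum_ramificationIndex_mul_deg v
    simp only [deg_eq_one_of_isFF, Nat.cast_one, mul_one] at h2
    exact_mod_cast h2
  have hle : ∀ w ∈ v.fiber F', w.ramificationIndex F ≤ k w := fun w hw =>
    (hk w (Place.mem_fiber.mp hw)).1
  have heq := (Finset.sum_eq_sum_iff_of_le hle).1 (hfi.trans hsum)
  rw [key g hg0 hg]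
  exact Finset.prod_congr rfl fun w hw => by rw [heq w hw]

end Norm

end Fermat.Agent.WeilPairing
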