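import Fermat.Agent.WeilPairing.Value

/-!
# Evaluating functions at divisors
-/

set_option autoImplicit false
set_option linter.unusedSectionVars false

noncomputable section

open AlgebraicCurve

namespace Fermat.Agent.WeilPairing

open Fermat.Agent.FunField Fermat.Agent.FunField.PlaceLemmas Fermat.Agent.S27C
open Fermat.Agent.PushPull hiding deg_eq_one

section Basic

variable {K F : Type*} [Field K] [Field F] [Algebra K F] [IsAlgClosed K] [IsFF K F]

attribute [local instance] isCurveOver

open Classical in
/-- The value of a function at a place as a unit (junk value `1` at zeros and poles). -/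
def uval (v : Place K F) (f : F) : Kˣ :=
  if h : f ≠ 0 ∧ v.ord f = 0 then Units.mk0 (val v f) (val_ne_zero h.1 h.2) else 1

theorem coe_uval {v : Place K F} {f : F} (hf : f ≠ 0) (h : v.ord f = 0) :
    (uval v f : K) = val v f := by
  unfold uval
  rw [dif_pos ⟨hf, h⟩]
  rfl

theorem uval_mul {v : Place K F} {f g : F} (hf : f ≠ 0) (h : v.ord f = 0)
    (hg : g ≠ 0) (h' : v.ord g = 0) : uval v (f * g) = uval v f * uval v g := by
  apply Units.ext
  rw [Units.val_mul, coe_uval hf h, coe_uval hg h',
    coe_uval (mul_ne_zero hf hg) (by rw [v.ord_mul hf hg, h, h', add_zero]),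
    val_mul v (mem_of_ord_eq_zero h) (mem_of_ord_eq_zero h')]

@[simp]
theorem uval_one (v : Place K F) : uval v (1 : F) = 1 := by
  apply Units.ext
  rw [coe_uval one_ne_zero v.ord_one]
  have := val_algebraMap v (1 : K)
  rwa [map_one] at this

theorem uval_algebraMap (v : Place K F) {c : K} (hc : c ≠ 0) :
    (uval v (algebraMap K F c) : K) = c := by
  rw [coe_uval ((map_ne_zero _).2 hc) (ord_algebraMap v c), val_algebraMap]

/-- The value of the function `f` on the divisor `D`; meaningful if the supports are disjoint. -/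
def ev (f : F) (D : Divisor K F) : Kˣ := D.prod fun v n => uval v f ^ n

@[simp]
theorem ev_zero (f : F) : ev (K := K) f 0 = 1 := Finsupp.prod_zero_index

@[simp]
theorem ev_single (f : F) (v : Place K F) (n : ℤ) : ev f (Finsupp.single v n) = uval v f ^ n :=
  Finsupp.prod_single_index (zpow_zero _)

theorem ev_add (f : F) (D E : Divisor K F) : ev f (D + E) = ev f D * ev f E := by
  classical
  exact Finsupp.prod_add_index' (fun _ => zpow_zero _) fun _ _ _ => zpow_add _ _ _

/-- evaluation as a homomorphism. -/
def evHom (f : F) : Divisor K F →+ Additive Kˣ where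
  toFun D := Additive.ofMul (ev f D)
  map_zero' := by rw [ev_zero]; rfl
  map_add' D E := by rw [ev_add]; rfl

theorem ev_neg (f : F) (D : Divisor K F) : ev f (-D) = (ev f D)⁻¹ := map_neg (evHom f) D

theorem ev_sub (f : F) (D E : Divisor K F) : ev f (D - E) = ev f D / ev f E :=
  map_sub (evHom f) D E

theorem ev_zsmul (f : F) (n : ℤ) (D : Divisor K F) : ev f (n • D) = ev f D ^ n :=
  map_zsmul (evHom f) n D

theorem ev_nsmul (f : F) (n : ℕ) (D : Divisor K F) : ev f (n • D) = ev f D ^ n :=
  map_nsmul (evHom f) n D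

theorem ev_sum {ι : Type*} (f : F) (s : Finset ι) (D : ι → Divisor K F) :
    ev f (∑ i ∈ s, D i) = ∏ i ∈ s, ev f (D i) := by
  classical
  induction s using Finset.induction_on with
  | empty => simp
  | insert a s ha ih => rw [Finset.sum_insert ha, Finset.prod_insert ha, ev_add, ih]

/-- `f` has no zeros or poles on the support of `D`. -/
def Dis (f : F) (D : Divisor K F) : Prop := ∀ v, D v ≠ 0 → v.ord f = 0

theorem Dis.add {f : F} {D E : Divisor K F} (hD : Dis f D) (hE : Dis f E) : Dis f (D + E) := by
  intro v hv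
  by_cases h : D v = 0
  · apply hE
    intro h'
    rw [Finsupp.add_apply, h, h'] at hv
    exact hv (add_zero _)
  · exact hD v h

theorem Dis.neg {f : F} {D : Divisor K F} (hD : Dis f D) : Dis f (-D) := by
  intro v hv
  apply hD
  intro h
  rw [Finsupp.neg_apply, h] at hv
  exact hv neg_zero

theorem Dis.sub {f : F} {D E : Divisor K F} (hD : Dis f D) (hE : Dis f E) : Dis f (D - E) := by
  rw [sub_eq_add_neg]; exact hD.add hE.neg

theorem Dis.zsmul {f : F} {D : Divisor K F} (hD : Dis f D) (n : ℤ) : Dis f (n • D) := by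
  intro v hv
  apply hD
  intro h
  rw [Finsupp.smul_apply, h, smul_zero] at hv
  exact hv rfl

theorem Dis.nsmul {f : F} {D : Divisor K F} (hD : Dis f D) (n : ℕ) : Dis f (n • D) := by
  rw [← natCast_zsmul]; exact hD.zsmul n

theorem Dis.mul {f g : F} {D : Divisor K F} (hf : f ≠ 0) (hg : g ≠ 0) (h : Dis f D) (h' : Dis g D) :
    Dis (f * g) D := fun v hv => by rw [v.ord_mul hf hg, h v hv, h' v hv, add_zero]

theorem Dis.inv {f : F} {D : Divisor K F} (h : Dis f D) :
    Dis f⁻¹ D := fun v hv => by rw [v.ord_inv, h v hv, neg_zero]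

theorem Dis.div {f g : F} {D : Divisor K F} (hf : f ≠ 0) (hg : g ≠ 0) (h : Dis f D) (h' : Dis g D) :
    Dis (f / g) D := by
  rw [div_eq_mul_inv]; exact Dis.mul hf (inv_ne_zero hg) h h'.inv

theorem Dis.zpow {f : F} {D : Divisor K F} (h : Dis f D) (n : ℤ) :
    Dis (f ^ n) D := fun v hv => by rw [v.ord_zpow, h v hv, mul_zero]

theorem Dis.pow {f : F} {D : Divisor K F} (h : Dis f D) (n : ℕ) :
    Dis (f ^ n) D := by rw [← zpow_natCast]; exact h.zpow n

theorem dis_const (c : K) (D : Divisor K F) : Dis (algebraMap K F c) D :=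
  fun v _ => ord_algebraMap v c

theorem ev_mul {f g : F} (hf : f ≠ 0) (hg : g ≠ 0) {D : Divisor K F} (h : Dis f D) (h' : Dis g D) :
    ev (f * g) D = ev f D * ev g D := by
  unfold ev
  rw [← Finsupp.prod_mul]
  refine Finsupp.prod_congr fun v hv => ?_
  rw [← mul_zpow, uval_mul hf (h v (Finsupp.mem_support_iff.1 hv)) hg
    (h' v (Finsupp.mem_support_iff.1 hv))]

@[simp]
theorem ev_one (D : Divisor K F) : ev (1 : F) D = 1 := by
  unfold ev
  simp

theorem ev_inv {f : F} (hf : f ≠ 0) {D : Divisor K F} (h : Dis f D) :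
    ev f⁻¹ D = (ev f D)⁻¹ := by
  rw [eq_inv_iff_mul_eq_one, ← ev_mul (inv_ne_zero hf) hf h.inv h, inv_mul_cancel₀ hf, ev_one]

theorem ev_div {f g : F} (hf : f ≠ 0) (hg : g ≠ 0) {D : Divisor K F} (h : Dis f D) (h' : Dis g D) :
    ev (f / g) D = ev f D / ev g D := by
  rw [div_eq_mul_inv, ev_mul hf (inv_ne_zero hg) h h'.inv, ev_inv hg h', div_eq_mul_inv]

theorem ev_pow {f : F} (hf : f ≠ 0) {D : Divisor K F} (h : Dis f D) (n : ℕ) :
    ev (f ^ n) D = ev f D ^ n := by
  induction n with
  | zero => simp
  | succ n ih => rw [pow_succ, pow_succ, ev_mul (pow_ne_zero _ hf) hf (h.pow n) h, ih]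

theorem ev_zpow {f : F} (hf : f ≠ 0) {D : Divisor K F} (h : Dis f D) (n : ℤ) :
    ev (f ^ n) D = ev f D ^ n := by
  rcases Int.eq_nat_or_neg n with ⟨m, hm | hm⟩
  · rw [hm, zpow_natCast, zpow_natCast, ev_pow hf h]
  · rw [hm, zpow_neg, zpow_neg, zpow_natCast, zpow_natCast, ev_inv (pow_ne_zero _ hf) (h.pow m),
      ev_pow hf h]

theorem ev_prod {ι : Type*} (s : Finset ι) {f : ι → F} (hf : ∀ i ∈ s, f i ≠ 0) {D : Divisor K F}
    (h : ∀ i ∈ s, Dis (f i) D) : ev (∏ i ∈ s, f i) D = ∏ i ∈ s, ev (f i) D := by
  classical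
  induction s using Finset.induction_on with
  | empty => simp
  | insert a s ha ih =>
    have h1 : (∏ i ∈ s, f i) ≠ 0 := Finset.prod_ne_zero_iff.2 fun i hi =>
      hf i (Finset.mem_insert_of_mem hi)
    have h2 : Dis (∏ i ∈ s, f i) D := fun v hv =>
      (ord_prod_eq_zero s f fun i hi => ⟨hf i (Finset.mem_insert_of_mem hi),
        h i (Finset.mem_insert_of_mem hi) v hv⟩).2
    rw [Finset.prod_insert ha, Finset.prod_insert ha,
      ev_mul (hf a (Finset.mem_insert_self _ _)) h1 (h a (Finset.mem_insert_self _ _)) h2,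
      ih (fun i hi => hf i (Finset.mem_insert_of_mem hi))
        fun i hi => h i (Finset.mem_insert_of_mem hi)]

theorem ev_const {c : K} (hc : c ≠ 0) (D : Divisor K F) :
    ev (algebraMap K F c) D = (Units.mk0 c hc) ^ (Divisor.degree D) := by
  have h1 : ∀ v : Place K F, uval v (algebraMap K F c) = Units.mk0 c hc := fun v =>
    Units.ext (uval_algebraMap v hc)
  induction D using Finsupp.induction with
  | zero => simp
  | single_add v n D _ _ ih =>
    rw [ev_add, ih, map_add, zpow_add, ev_single, h1, Divisor.degree_single, deg_eq_one_of_isFF,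
      Nat.cast_one, mul_one]

theorem ev_const_degZero {c : K} (hc : c ≠ 0) {D : Divisor K F} (hD : Divisor.degree D = 0) :
    ev (algebraMap K F c) D = 1 := by
  rw [ev_const hc, hD, zpow_zero]

/-- Functions with the same divisor differ by a constant. -/
theorem exists_const_of_divOf_eq {f g : F} (hf : f ≠ 0) (hg : g ≠ 0)
    (h : (divOf f : Divisor K F) = divOf g) : ∃ c : K, c ≠ 0 ∧ f = algebraMap K F c * g := by
  obtain ⟨c, hc⟩ := exists_eq_algebraMap_of_forall_ord_nonneg (K := K) (f := f / g) fun v => by
    have h1 := DFunLike.congr_fun h v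
    rw [divOf_apply, divOf_apply] at h1
    rw [ord_div v hf hg, h1, sub_self]
  have hc0 : c ≠ 0 := by
    rintro rfl
    rw [map_zero] at hc
    exact div_ne_zero hf hg hc.symm
  exact ⟨c, hc0, by rw [hc, div_mul_cancel₀ _ hg]⟩

/-- The value on a degree zero divisor only depends on the divisor of the function. -/
theorem ev_eq_of_divOf_eq {f g : F} (hf : f ≠ 0) (hg : g ≠ 0)
    (h : (divOf f : Divisor K F) = divOf g) {D : Divisor K F} (hD : Divisor.degree D = 0)
    (hd : Dis f D) : ev f D = ev g D := by
  have hd' : Dis g D := fun v hv => by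
    rw [← divOf_apply, ← h, divOf_apply]; exact hd v hv
  obtain ⟨c, hc, rfl⟩ := exists_const_of_divOf_eq hf hg h
  rw [ev_mul ((map_ne_zero _).2 hc) hg (dis_const c D) hd', ev_const_degZero hc hD, one_mul]

end Basic

section Map

variable {K F F' : Type*} [Field K] [Field F] [Field F'] [Algebra K F] [Algebra K F']
  [Algebra F F'] [IsScalarTower K F F'] [Module.Finite F F']
  [IsAlgClosed K] [IsFF K F] [IsFF K F']

attribute [local instance] isCurveOver

theorem inertiaDeg_eq_one (w : Place K F') : w.inertiaDeg F = 1 := by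
  have h := w.deg_restrict_mul_inertiaDeg (F := F)
  rw [deg_eq_one_of_isFF, deg_eq_one_of_isFF, one_mul] at h
  exact h

theorem ord_restrict_eq_zero_iff (w : Place K F') (f : F) :
    w.ord (algebraMap F F' f) = 0 ↔ (w.restrict F).ord f = 0 := by
  rw [w.ord_restrict]
  have := w.ramificationIndex_pos (F := F)
  constructor
  · intro h
    rcases mul_eq_zero.1 h with h | h
    · omega
    · exact h
  · intro h; rw [h, mul_zero]

theorem uval_algebraMap_restrict (w : Place K F') (f : F) :
    uval w (algebraMap F F' f) = uval (w.restrict F) f := by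
  by_cases hf : f = 0
  · subst hf
    rw [map_zero]
    unfold uval
    simp
  by_cases h : (w.restrict F).ord f = 0
  · apply Units.ext
    rw [coe_uval hf h, coe_uval ((map_ne_zero _).2 hf) ((ord_restrict_eq_zero_iff w f).2 h),
      val_algebraMap_restrict w (mem_of_ord_eq_zero h)]
  · unfold uval
    rw [dif_neg fun h' => h ((ord_restrict_eq_zero_iff w f).1 h'.2), dif_neg fun h' => h h'.2]

/-- **Projection formula I.** -/
theorem ev_algebraMap (f : F) (D : Divisor K F') :
    ev (algebraMap F F' f) D = ev f (Divisor.pushforward F D) := by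
  induction D using Finsupp.induction with
  | zero => simp
  | single_add w n D _ _ ih =>
    rw [map_add, ev_add, ev_add, ih, Divisor.pushforward_single, ev_single, ev_single,
      inertiaDeg_eq_one, Nat.cast_one, mul_one, uval_algebraMap_restrict]

/-- **Projection formula II.** -/
theorem ev_norm {g : F'} (hg : g ≠ 0) (D : Divisor K F)
    (h : Dis g (Divisor.pullback F' D)) :
    ev (Algebra.norm F g) D = ev g (Divisor.pullback F' D) := by
  have h' : ∀ w : Place K F', D (w.restrict F) ≠ 0 → w.ord g = 0 := by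
    intro w hw
    apply h
    rw [Divisor.pullback_apply]
    have := w.ramificationIndex_pos (F := F)
    exact mul_ne_zero (by omega) hw
  clear h
  induction D using Finsupp.induction with
  | zero => simp
  | single_add v n D hv hn ih =>
    rw [map_add, ev_add, ev_add, ih, Divisor.pullback_single, ev_single, ev_sum]
    · congr 1
      have hv0 : ∀ w : Place K F', w.restrict F = v → w.ord g = 0 := by
        intro w hw
        apply h'
        rw [hw, Finsupp.add_apply, Finsupp.single_eq_same, Finsupp.notMem_support_iff.1 hv,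
          add_zero]
        exact hn
      have h1 : uval v (Algebra.norm F g) =
          ∏ w ∈ v.fiber F', uval w g ^ (w.ramificationIndex F) := by
        apply Units.ext
        rw [coe_uval (norm_ne_zero hg) (norm_ord_eq_zero v hv0), val_norm v hg hv0,
          Units.coe_prod]
        refine Finset.prod_congr rfl fun w hw => ?_
        rw [Units.val_pow_eq_pow_val, coe_uval hg (hv0 w (Place.mem_fiber.1 hw))]
      rw [h1, ← Finset.prod_zpow]
      refine Finset.prod_congr rfl fun w _ => ?_
      rw [ev_single, mul_comm, zpow_mul, zpow_natCast]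
    · intro w hw
      by_cases hwv : w.restrict F = v
      · rw [hwv] at hw
        exact absurd (Finsupp.notMem_support_iff.1 hv) hw
      · apply h'
        rw [Finsupp.add_apply, Finsupp.single_eq_of_ne hwv, zero_add]
        exact hw

end Map

end Fermat.Agent.WeilPairing
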