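import Fermat.Agent.WeilPairing.Recip
import Fermat.Prelude.Def_AlgebraicCurve_BaseChangeGalois

/-!
# The Weil pairing on `Pic0(F)[n]`
-/

set_option autoImplicit false
set_option linter.unusedSectionVars false

noncomputable section

open AlgebraicCurve IntermediateField

namespace Fermat.Agent.WeilPairing

open Fermat.Agent.FunField Fermat.Agent.FunField.PlaceLemmas Fermat.Agent.S27C
open Fermat.Agent.PushPull hiding deg_eq_one

section Pairing

variable {K F : Type*} [Field K] [Field F] [Algebra K F] [IsAlgClosed K] [IsFF K F]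

attribute [local instance] isCurveOver

theorem exists_move (D : Divisor K F) (S : Finset (Place K F)) :
    ∃ h : F, h ≠ 0 ∧ ∀ v ∈ S, (D + divOf h : Divisor K F) v = 0 := by
  obtain ⟨h, hh, hv⟩ := exists_forall_ord_eq (fun v : S => (v : Place K F))
    Subtype.val_injective fun v => -D v
  refine ⟨h, hh, fun v hvS => ?_⟩
  have := hv ⟨v, hvS⟩
  rw [Finsupp.add_apply, divOf_apply, this]
  simp

/-- A function with divisor supported on a multiple of `D` has no zeros or poles on the support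
of a divisor disjoint from `D`. -/
theorem dis_of_divOf_eq {f : F} {n : ℕ} {D E : Divisor K F} (hf : divOf f = n • D)
    (h : ∀ v, D v = 0 ∨ E v = 0) : Dis f E := by
  intro v hv
  have h1 := (h v).resolve_right hv
  rw [← divOf_apply, hf, Finsupp.smul_apply, h1, smul_zero]

theorem dis_of_divOf_eq' {f : F} {n : ℕ} {D E : Divisor K F} (hf : divOf f = n • D)
    (h : ∀ v, E v = 0 ∨ D v = 0) : Dis f E :=
  dis_of_divOf_eq hf fun v => (h v).symm

variable (n : ℕ)

/-- Independence of the second divisor. -/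
theorem indep_right {D E E' : Divisor K F} {f g g' : F} (hf0 : f ≠ 0) (hg0 : g ≠ 0) (hg0' : g' ≠ 0)
    (hf : divOf f = n • D) (hg : divOf g = n • E) (hg' : divOf g' = n • E')
    (hD : Divisor.degree D = 0)
    (h1 : ∀ v, D v = 0 ∨ E v = 0) (h2 : ∀ v, D v = 0 ∨ E' v = 0) {h : F} (hh0 : h ≠ 0)
    (hh : E' = E + divOf h) : ev f E / ev g D = ev f E' / ev g' D := by
  have hhD : Dis h D := by
    intro v hv
    have h3 := (h1 v).resolve_left hv
    have h4 := (h2 v).resolve_left hv
    rw [hh, Finsupp.add_apply, h3, zero_add, divOf_apply] at h4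
    exact h4
  have hgD : Dis g D := dis_of_divOf_eq' hg h1
  have hgD' : Dis g' D := dis_of_divOf_eq' hg' h2
  have hdiv : (divOf g' : Divisor K F) = divOf (g * h ^ n) := by
    rw [divOf_mul hg0 (pow_ne_zero _ hh0), divOf_pow, hg', hg, hh, smul_add]
  have hrec : ev f (divOf h : Divisor K F) = ev h D ^ n := by
    rw [weil_reciprocity hf0 hh0, hf, ev_nsmul]
    intro v
    by_cases hv : D v = 0
    · left
      rw [← divOf_apply, hf, Finsupp.smul_apply, hv, smul_zero]
    · exact Or.inr (hhD v hv)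
  rw [ev_eq_of_divOf_eq hg0' (mul_ne_zero hg0 (pow_ne_zero _ hh0)) hdiv hD hgD',
    ev_mul hg0 (pow_ne_zero _ hh0) hgD (hhD.pow n), ev_pow hh0 hhD, hh, ev_add, hrec,
    mul_div_mul_right_eq_div]

/-- Independence of the first divisor. -/
theorem indep_left {D D' E : Divisor K F} {f f' g : F} (hf0 : f ≠ 0) (hf0' : f' ≠ 0) (hg0 : g ≠ 0)
    (hf : divOf f = n • D) (hf' : divOf f' = n • D') (hg : divOf g = n • E)
    (hE : Divisor.degree E = 0)
    (h1 : ∀ v, D v = 0 ∨ E v = 0) (h2 : ∀ v, D' v = 0 ∨ E v = 0) {h : F} (hh0 : h ≠ 0)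
    (hh : D' = D + divOf h) : ev f E / ev g D = ev f' E / ev g D' := by
  have := indep_right n hg0 hf0 hf0' hg hf hf' hE (fun v => (h1 v).symm) (fun v => (h2 v).symm)
    hh0 hh
  rw [← inv_div, this, inv_div]

/-- Data computing the Weil pairing of `x` and `y`. -/
structure WeilData (x y : Pic0 K F) where
  D : Divisor.degZero (K := K) (F := F)
  E : Divisor.degZero (K := K) (F := F)
  f : F
  g : F
  f_ne : f ≠ 0
  g_ne : g ≠ 0
  mkD : Pic0.mk D = x
  mkE : Pic0.mk E = y
  div_f : divOf f = n • (D : Divisor K F)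
  div_g : divOf g = n • (E : Divisor K F)
  dis : ∀ v, (D : Divisor K F) v = 0 ∨ (E : Divisor K F) v = 0

variable {n}

/-- The value of the pairing computed with the data. -/
def WeilData.value {x y : Pic0 K F} (W : WeilData n x y) : Kˣ :=
  ev W.f (W.E : Divisor K F) / ev W.g (W.D : Divisor K F)

theorem mk_eq_mk_iff (D E : Divisor.degZero (K := K) (F := F)) :
    Pic0.mk D = Pic0.mk E ↔ ∃ h : F, h ≠ 0 ∧ (E : Divisor K F) = (D : Divisor K F) + divOf h := by
  unfold Pic0.mk
  rw [QuotientAddGroup.eq, AddSubgroup.mem_addSubgroupOf]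
  constructor
  · rintro ⟨h, hh, hv⟩
    refine ⟨h, hh, ?_⟩
    ext v
    have h1 := hv v
    rw [AddSubgroup.coe_add, Finsupp.add_apply, AddSubgroup.coe_neg, Finsupp.neg_apply] at h1
    rw [Finsupp.add_apply, divOf_apply, ← h1]
    ring
  · rintro ⟨h, hh, hv⟩
    refine ⟨h, hh, fun v => ?_⟩
    rw [AddSubgroup.coe_add, Finsupp.add_apply, AddSubgroup.coe_neg, Finsupp.neg_apply, hv,
      Finsupp.add_apply, divOf_apply]
    ring

theorem mk_eq_zero_iff (D : Divisor.degZero (K := K) (F := F)) :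
    Pic0.mk D = 0 ↔ ∃ h : F, h ≠ 0 ∧ (D : Divisor K F) = divOf h := by
  rw [← Pic0.mk_zero, eq_comm, mk_eq_mk_iff]
  simp

theorem divOf_mem_degZero (h : F) : (divOf h : Divisor K F) ∈ Divisor.degZero (K := K) (F := F) :=
  Divisor.mem_degZero.2 (degree_divOf h)

/-- A representative of a class avoiding a finite set of places. -/
theorem exists_rep (x : Pic0 K F) (S : Finset (Place K F)) :
    ∃ D : Divisor.degZero (K := K) (F := F), Pic0.mk D = x ∧ ∀ v ∈ S, (D : Divisor K F) v = 0 := by
  obtain ⟨D, rfl⟩ := Pic0.mk_surjective x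
  obtain ⟨h, hh, hv⟩ := exists_move (D : Divisor K F) S
  refine ⟨⟨(D : Divisor K F) + divOf h, add_mem D.2 (divOf_mem_degZero h)⟩, ?_, hv⟩
  symm
  rw [mk_eq_mk_iff]
  exact ⟨h, hh, rfl⟩

theorem exists_fun_of_nsmul_eq_zero {x : Pic0 K F} (hx : n • x = 0)
    {D : Divisor.degZero (K := K) (F := F)} (hD : Pic0.mk D = x) :
    ∃ f : F, f ≠ 0 ∧ divOf f = n • (D : Divisor K F) := by
  have h1 : Pic0.mk (n • D) = 0 := by
    rw [← hx, ← hD]; rfl
  obtain ⟨h, hh, hv⟩ := (mk_eq_zero_iff _).1 h1
  exact ⟨h, hh, by rw [← hv]; rfl⟩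

/-- Independence of the choices. -/
theorem value_eq {x y : Pic0 K F} (W W' : WeilData n x y) : W.value = W'.value := by
  classical
  obtain ⟨E, hE, hES⟩ := exists_rep y
    ((W.D : Divisor K F).support ∪ (W'.D : Divisor K F).support)
  have hdis : ∀ v, (W.D : Divisor K F) v = 0 ∨ (E : Divisor K F) v = 0 := by
    intro v
    by_cases hv : (W.D : Divisor K F) v = 0
    · exact Or.inl hv
    · exact Or.inr (hES v (Finset.mem_union_left _ (Finsupp.mem_support_iff.2 hv)))
  have hdis' : ∀ v, (W'.D : Divisor K F) v = 0 ∨ (E : Divisor K F) v = 0 := by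
    intro v
    by_cases hv : (W'.D : Divisor K F) v = 0
    · exact Or.inl hv
    · exact Or.inr (hES v (Finset.mem_union_right _ (Finsupp.mem_support_iff.2 hv)))
  obtain ⟨h, hh, hhE⟩ := (mk_eq_mk_iff _ _).1 (W.mkE.trans hE.symm)
  obtain ⟨h', hh', hhE'⟩ := (mk_eq_mk_iff _ _).1 (W'.mkE.trans hE.symm)
  obtain ⟨k, hk, hkD⟩ := (mk_eq_mk_iff _ _).1 (W.mkD.trans W'.mkD.symm)
  have hg0 : W.g * h ^ n ≠ 0 := mul_ne_zero W.g_ne (pow_ne_zero _ hh)
  have hg : divOf (W.g * h ^ n) = n • (E : Divisor K F) := by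
    rw [divOf_mul W.g_ne (pow_ne_zero _ hh), divOf_pow, W.div_g, ← smul_add, ← hhE]
  unfold WeilData.value
  rw [indep_right n W.f_ne W.g_ne hg0 W.div_f W.div_g hg W.D.2 W.dis hdis hh hhE,
    indep_right n W'.f_ne W'.g_ne hg0 W'.div_f W'.div_g hg W'.D.2 W'.dis hdis' hh' hhE',
    indep_left n W.f_ne W'.f_ne hg0 W.div_f W'.div_f hg E.2 hdis hdis' hk hkD]

theorem exists_data {x y : Pic0 K F} (hy : n • y = 0) (S : Finset (Place K F))
    {D : Divisor.degZero (K := K) (F := F)} (hD : Pic0.mk D = x) {f : F} (hf0 : f ≠ 0)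
    (hf : divOf f = n • (D : Divisor K F)) :
    ∃ W : WeilData n x y, W.D = D ∧ W.f = f ∧ ∀ v ∈ S, (W.E : Divisor K F) v = 0 := by
  classical
  obtain ⟨E, hE, hES⟩ := exists_rep y ((D : Divisor K F).support ∪ S)
  obtain ⟨g, hg0, hg⟩ := exists_fun_of_nsmul_eq_zero hy hE
  refine ⟨⟨D, E, f, g, hf0, hg0, hD, hE, hf, hg, fun v => ?_⟩, rfl, rfl, fun v hv =>
    hES v (Finset.mem_union_right _ hv)⟩
  by_cases hv : (D : Divisor K F) v = 0
  · exact Or.inl hv
  · exact Or.inr (hES v (Finset.mem_union_left _ (Finsupp.mem_support_iff.2 hv)))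

theorem nonempty_data {x y : Pic0 K F} (hx : n • x = 0) (hy : n • y = 0) :
    Nonempty (WeilData n x y) := by
  obtain ⟨D, hD⟩ := Pic0.mk_surjective x
  obtain ⟨f, hf0, hf⟩ := exists_fun_of_nsmul_eq_zero hx hD
  obtain ⟨W, -⟩ := exists_data hy ∅ hD hf0 hf
  exact ⟨W⟩

variable (n) in
open Classical in
/-- The Weil pairing of two `n`-torsion classes (junk value `1` otherwise). -/
def weil (x y : Pic0 K F) : Kˣ :=
  if h : Nonempty (WeilData n x y) then h.some.value else 1

/-- The Weil pairing may be computed with arbitrary data. -/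
theorem weil_eq {x y : Pic0 K F} (W : WeilData n x y) : weil n x y = W.value := by
  unfold weil
  rw [dif_pos ⟨W⟩]
  exact value_eq _ _

/-- Unbundled form. -/
theorem weil_eq_div (D E : Divisor.degZero (K := K) (F := F)) {f g : F} (hf0 : f ≠ 0)
    (hg0 : g ≠ 0) (hf : divOf f = n • (D : Divisor K F)) (hg : divOf g = n • (E : Divisor K F))
    (hdis : ∀ v, (D : Divisor K F) v = 0 ∨ (E : Divisor K F) v = 0) :
    weil n (Pic0.mk D) (Pic0.mk E) = ev f (E : Divisor K F) / ev g (D : Divisor K F) :=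
  weil_eq ⟨D, E, f, g, hf0, hg0, rfl, rfl, hf, hg, hdis⟩

/-- Antisymmetry. -/
theorem weil_symm {x y : Pic0 K F} (hx : n • x = 0) (hy : n • y = 0) :
    weil n y x = (weil n x y)⁻¹ := by
  obtain ⟨W⟩ := nonempty_data hx hy
  let W' : WeilData n y x := ⟨W.E, W.D, W.g, W.f, W.g_ne, W.f_ne, W.mkE, W.mkD, W.div_g, W.div_f,
    fun v => (W.dis v).symm⟩
  rw [weil_eq W, weil_eq W']
  unfold WeilData.value
  rw [inv_div]

theorem weil_add_right {x y y' : Pic0 K F} (hx : n • x = 0) (hy : n • y = 0) (hy' : n • y' = 0) :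
    weil n x (y + y') = weil n x y * weil n x y' := by
  obtain ⟨D, hD⟩ := Pic0.mk_surjective x
  obtain ⟨f, hf0, hf⟩ := exists_fun_of_nsmul_eq_zero hx hD
  obtain ⟨W, hWD, hWf, -⟩ := exists_data hy ∅ hD hf0 hf
  obtain ⟨W', hWD', hWf', -⟩ := exists_data hy' ∅ hD hf0 hf
  have hd1 : ∀ v, (D : Divisor K F) v = 0 ∨ (W.E : Divisor K F) v = 0 := by
    rw [← hWD]; exact W.dis
  have hd2 : ∀ v, (D : Divisor K F) v = 0 ∨ (W'.E : Divisor K F) v = 0 := by
    rw [← hWD']; exact W'.dis
  let W₂ : WeilData n x (y + y') := ⟨D, W.E + W'.E, f, W.g * W'.g, hf0,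
    mul_ne_zero W.g_ne W'.g_ne, hD, by rw [Pic0.mk_add, W.mkE, W'.mkE], hf, by
      rw [divOf_mul W.g_ne W'.g_ne, W.div_g, W'.div_g, AddSubgroup.coe_add, smul_add], by
      intro v
      rcases hd1 v with h | h
      · exact Or.inl h
      · rcases hd2 v with h' | h'
        · exact Or.inl h'
        · right
          rw [AddSubgroup.coe_add, Finsupp.add_apply, h, h', add_zero]⟩
  rw [weil_eq W, weil_eq W', weil_eq W₂]
  unfold WeilData.value
  change ev f ((W.E : Divisor K F) + (W'.E : Divisor K F)) / ev (W.g * W'.g) (D : Divisor K F) = _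
  rw [hWD, hWD', hWf, hWf', ev_add, ev_mul W.g_ne W'.g_ne (dis_of_divOf_eq' W.div_g hd1)
    (dis_of_divOf_eq' W'.div_g hd2), div_mul_div_comm]

theorem weil_add_left {x x' y : Pic0 K F} (hx : n • x = 0) (hx' : n • x' = 0) (hy : n • y = 0) :
    weil n (x + x') y = weil n x y * weil n x' y := by
  have h : n • (x + x') = 0 := by rw [nsmul_add, hx, hx', add_zero]
  rw [← inv_inv (weil n (x + x') y), ← weil_symm h hy, weil_add_right hy hx hx',
    weil_symm hx hy, weil_symm hx' hy, mul_inv, inv_inv, inv_inv]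

@[simp]
theorem weil_zero_right {x : Pic0 K F} (hx : n • x = 0) : weil n x 0 = 1 := by
  have h := weil_add_right hx (nsmul_zero n) (nsmul_zero n)
  rw [add_zero] at h
  exact (mul_eq_left.1 h.symm)

@[simp]
theorem weil_zero_left {x : Pic0 K F} (hx : n • x = 0) : weil n 0 x = 1 := by
  rw [weil_symm hx (nsmul_zero n), weil_zero_right hx, inv_one]

theorem weil_neg_right {x y : Pic0 K F} (hx : n • x = 0) (hy : n • y = 0) :
    weil n x (-y) = (weil n x y)⁻¹ := by
  rw [eq_inv_iff_mul_eq_one, ← weil_add_right hx (by rw [neg_nsmul, hy, neg_zero]) hy,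
    neg_add_cancel, weil_zero_right hx]

theorem weil_neg_left {x y : Pic0 K F} (hx : n • x = 0) (hy : n • y = 0) :
    weil n (-x) y = (weil n x y)⁻¹ := by
  rw [eq_inv_iff_mul_eq_one, ← weil_add_left (by rw [neg_nsmul, hx, neg_zero]) hx hy,
    neg_add_cancel, weil_zero_left hy]

theorem weil_nsmul_left {x y : Pic0 K F} (hx : n • x = 0) (hy : n • y = 0) (m : ℕ) :
    weil n (m • x) y = (weil n x y) ^ m := by
  induction m with
  | zero => rw [zero_nsmul, weil_zero_left hy, pow_zero]
  | succ m ih =>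
    rw [succ_nsmul, weil_add_left (by rw [nsmul_left_comm, hx, nsmul_zero]) hx hy, ih, pow_succ]

theorem weil_nsmul_right {x y : Pic0 K F} (hx : n • x = 0) (hy : n • y = 0) (m : ℕ) :
    weil n x (m • y) = (weil n x y) ^ m := by
  induction m with
  | zero => rw [zero_nsmul, weil_zero_right hx, pow_zero]
  | succ m ih =>
    rw [succ_nsmul, weil_add_right hx (by rw [nsmul_left_comm, hy, nsmul_zero]) hy, ih, pow_succ]

/-- The Weil pairing takes values in the `n`-th roots of unity. -/
theorem weil_pow {x y : Pic0 K F} (hx : n • x = 0) (hy : n • y = 0) :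
    (weil n x y) ^ n = 1 := by
  rw [← weil_nsmul_left hx hy, hx, weil_zero_left hy]

/-! ### Equivariance -/

open SemilinearAut in
theorem val_smul (s : SemilinearAut K F) (v : Place K F) {f : F} (hf : f ∈ v.toValuationSubring) :
    val (s • v) (s • f) = baseAut s (val v f) := by
  apply val_eq_of_ord_sub
  have h := val_spec v hf
  rw [adic_lt_one_iff, sub_eq_zero] at h
  rcases h with h | h
  · left
    conv_lhs => rw [h]
    exact SemilinearAut.smul_algebraMap s _
  · right
    rw [← SemilinearAut.smul_algebraMap, ← smul_sub, ord_smul]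
    exact h

open SemilinearAut in
theorem smul_ne_zero' (s : SemilinearAut K F) {f : F} (hf : f ≠ 0) : s • f ≠ 0 := by
  rw [SemilinearAut.smul_def]
  exact (map_ne_zero_iff _ (toRingAut s).injective).2 hf

open SemilinearAut in
theorem uval_smul (s : SemilinearAut K F) (v : Place K F) (f : F) :
    uval (s • v) (s • f) = Units.map (baseAut s).toMonoidHom (uval v f) := by
  by_cases h : f ≠ 0 ∧ v.ord f = 0
  · apply Units.ext
    rw [Units.coe_map, coe_uval (smul_ne_zero' s h.1) (by rw [ord_smul]; exact h.2),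
      coe_uval h.1 h.2, val_smul s v (mem_of_ord_eq_zero h.2)]
    rfl
  · have h' : ¬(s • f ≠ 0 ∧ (s • v).ord (s • f) = 0) := by
      rw [ord_smul]
      intro h'
      refine h ⟨?_, h'.2⟩
      rintro rfl
      exact h'.1 (smul_zero s)
    unfold uval
    rw [dif_neg h, dif_neg h', map_one]

open SemilinearAut in
theorem ev_smul (s : SemilinearAut K F) (f : F) (D : Divisor K F) :
    ev (s • f) (s • D) = Units.map (baseAut s).toMonoidHom (ev f D) := by
  induction D using Finsupp.induction with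
  | zero => simp
  | single_add v n D _ _ ih =>
    rw [smul_add, ev_add, ev_add, ih, map_mul, smul_single, ev_single, ev_single, uval_smul,
      map_zpow]

open SemilinearAut in
theorem divOf_smul' (s : SemilinearAut K F) (f : F) :
    (divOf (s • f) : Divisor K F) = s • divOf f := by
  ext v
  rw [divOf_apply, divisor_smul_apply, divOf_apply, ← ord_smul s (s⁻¹ • v) f, smul_inv_smul]

open SemilinearAut in
/-- **Equivariance of the Weil pairing.** -/
theorem weil_smul (s : SemilinearAut K F) {x y : Pic0 K F} (hx : n • x = 0) (hy : n • y = 0) :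
    weil n (s • x) (s • y) = Units.map (baseAut s).toMonoidHom (weil n x y) := by
  obtain ⟨W⟩ := nonempty_data hx hy
  have hsm : ∀ (m : ℕ) (D : Divisor K F), s • (m • D) = m • (s • D) := fun m D =>
    map_nsmul (DistribSMul.toAddMonoidHom (Divisor K F) s) m D
  let W' : WeilData n (s • x) (s • y) := ⟨degZeroSMulHom s W.D, degZeroSMulHom s W.E,
    s • W.f, s • W.g, smul_ne_zero' s W.f_ne, smul_ne_zero' s W.g_ne,
    by rw [← pic0_smul_mk, W.mkD], by rw [← pic0_smul_mk, W.mkE],
    by rw [divOf_smul', W.div_f, hsm, coe_degZeroSMulHom],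
    by rw [divOf_smul', W.div_g, hsm, coe_degZeroSMulHom], fun v => by
      rw [coe_degZeroSMulHom, coe_degZeroSMulHom, divisor_smul_apply, divisor_smul_apply]
      exact W.dis _⟩
  rw [weil_eq W, weil_eq W']
  unfold WeilData.value
  change ev (s • W.f) (s • (W.E : Divisor K F)) / ev (s • W.g) (s • (W.D : Divisor K F)) = _
  rw [ev_smul, ev_smul, map_div]

variable (K F n) in
/-- The Weil pairing as a bilinear map on the torsion. -/
def weilPairing : Pic0.torsion K F n →+ Pic0.torsion K F n →+ Additive Kˣ :=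
  AddMonoidHom.mk' (fun x => AddMonoidHom.mk' (fun y => Additive.ofMul (weil n (x : Pic0 K F) y))
    fun y y' => by
      have hx := Pic0.mem_torsion.1 x.2
      have hy := Pic0.mem_torsion.1 y.2
      have hy' := Pic0.mem_torsion.1 y'.2
      rw [natCast_zsmul] at hx hy hy'
      rw [AddSubgroup.coe_add, weil_add_right hx hy hy', ofMul_mul])
    fun x x' => by
      ext y
      have hx := Pic0.mem_torsion.1 x.2
      have hy := Pic0.mem_torsion.1 y.2
      have hx' := Pic0.mem_torsion.1 x'.2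
      rw [natCast_zsmul] at hx hy hx'
      simp only [AddMonoidHom.mk'_apply, AddMonoidHom.add_apply, AddSubgroup.coe_add]
      rw [weil_add_left hx hx' hy, ofMul_mul]

theorem weilPairing_apply (x y : Pic0.torsion K F n) :
    weilPairing K F n x y = Additive.ofMul (weil n (x : Pic0 K F) y) := rfl

end Pairing

end Fermat.Agent.WeilPairing
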