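import Fermat.Agent.WeilPairing.EvalDiv
import Fermat.Agent.FunField.Duality

/-!
# Weil reciprocity

`f(div g) = g(div f)` for functions with disjoint divisors on a curve over an algebraically
closed field.
-/

set_option autoImplicit false
set_option linter.unusedSectionVars false

noncomputable section

open AlgebraicCurve IntermediateField

namespace Fermat.Agent.WeilPairing

open Fermat.Agent.FunField Fermat.Agent.FunField.PlaceLemmas Fermat.Agent.S27C
open Fermat.Agent.PushPull hiding deg_eq_one

section Div

variable {K F : Type*} [Field K] [Field F] [Algebra K F] [IsFF K F]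

theorem divOf_mul {f g : F} (hf : f ≠ 0) (hg : g ≠ 0) :
    (divOf (f * g) : Divisor K F) = divOf f + divOf g := by
  ext v
  rw [Finsupp.add_apply, divOf_apply, divOf_apply, divOf_apply, v.ord_mul hf hg]

theorem divOf_pow (f : F) (n : ℕ) :
    (divOf (f ^ n) : Divisor K F) = n • divOf f := by
  ext v
  rw [Finsupp.smul_apply, divOf_apply, divOf_apply, ord_pow, nsmul_eq_mul]

theorem divOf_zpow (f : F) (n : ℤ) :
    (divOf (f ^ n) : Divisor K F) = n • divOf f := by
  ext v
  rw [Finsupp.smul_apply, divOf_apply, divOf_apply, v.ord_zpow, smul_eq_mul]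

theorem divOf_inv (f : F) : (divOf f⁻¹ : Divisor K F) = -divOf f := by
  ext v
  rw [Finsupp.neg_apply, divOf_apply, divOf_apply, v.ord_inv]

theorem divOf_div {f g : F} (hf : f ≠ 0) (hg : g ≠ 0) :
    (divOf (f / g) : Divisor K F) = divOf f - divOf g := by
  rw [div_eq_mul_inv, divOf_mul hf (inv_ne_zero hg), divOf_inv, sub_eq_add_neg]

theorem divOf_const (c : K) : (divOf (algebraMap K F c) : Divisor K F) = 0 := by
  ext v
  rw [Finsupp.zero_apply, divOf_apply, ord_algebraMap]

theorem divOf_prod {ι : Type*} (s : Finset ι) (f : ι → F) (hf : ∀ i ∈ s, f i ≠ 0) :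
    (divOf (∏ i ∈ s, f i) : Divisor K F) = ∑ i ∈ s, divOf (f i) := by
  classical
  induction s using Finset.induction_on with
  | empty =>
    rw [Finset.prod_empty, Finset.sum_empty, ← map_one (algebraMap K F), divOf_const]
  | insert a s ha ih =>
    rw [Finset.prod_insert ha, Finset.sum_insert ha, divOf_mul (hf a (Finset.mem_insert_self _ _))
      (Finset.prod_ne_zero_iff.2 fun i hi => hf i (Finset.mem_insert_of_mem hi)),
      ih fun i hi => hf i (Finset.mem_insert_of_mem hi)]

end Div

section Rational

variable {K E : Type*} [Field K] [Field E] [Algebra K E] [IsAlgClosed K] [IsFF K E]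

attribute [local instance] isCurveOver

theorem exists_eq_single {D : Divisor K E} (h0 : 0 ≤ D) (h1 : Divisor.degree D = 1) :
    ∃ v : Place K E, D = Finsupp.single v 1 := by
  classical
  have hne : D ≠ 0 := by
    rintro rfl
    rw [map_zero] at h1
    exact zero_ne_one h1
  obtain ⟨v, hv⟩ := Finsupp.support_nonempty_iff.mpr hne
  have hv0 : D v ≠ 0 := Finsupp.mem_support_iff.mp hv
  have h2 : 0 < D v := lt_of_le_of_ne (h0 v) hv0.symm
  refine ⟨v, ?_⟩
  have h3 : D - Finsupp.single v 1 = 0 := by
    apply eq_zero_of_degree_zero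
    · intro w
      rw [Finsupp.zero_apply, Finsupp.sub_apply, Finsupp.single_apply]
      split_ifs with h
      · rw [← h]; omega
      · rw [sub_zero]; exact h0 w
    · rw [map_sub, h1, Divisor.degree_single, deg_eq_one_of_isFF]; simp
  exact sub_eq_zero.1 h3

variable (t : E)

/-- Weil reciprocity on the projective line, one of the functions being the coordinate. -/
theorem recip_rational (ht : Transcendental K t) (htop : Module.finrank K⟮t⟯ E = 1) {h : E}
    (hh : h ≠ 0) (hdis : ∀ v : Place K E, v.ord t = 0 ∨ v.ord h = 0) :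
    ev t (divOf h : Divisor K E) = ev h (divOf t : Divisor K E) := by
  classical
  have ht0 : t ≠ 0 := by rintro rfl; exact ht isAlgebraic_zero
  -- the places
  obtain ⟨Q, hQ⟩ := exists_eq_single (poleDiv_nonneg (K := K) t)
    (by rw [degree_poleDiv ht, htop]; rfl)
  have hPex : ∀ a : K, ∃ P : Place K E,
      (zeroDiv (t - algebraMap K E a) : Divisor K E) = Finsupp.single P 1 := fun a =>
    exists_eq_single (zeroDiv_nonneg _) (by rw [sum_ord_sub_algebraMap ht, htop]; rfl)
  choose P hP using hPex
  have htr : ∀ a : K, Transcendental K (t - algebraMap K E a) := by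
    intro a h
    apply ht
    have := h.add (isAlgebraic_algebraMap (R := K) (A := E) a)
    rwa [sub_add_cancel] at this
  have hne : ∀ a : K, t - algebraMap K E a ≠ 0 := by
    intro a h
    apply htr a
    rw [h]; exact isAlgebraic_zero
  have hQt : Q.ord t = -1 := by
    have h1 := DFunLike.congr_fun hQ Q
    rw [poleDiv_apply, Finsupp.single_eq_same] at h1
    omega
  have hQa : ∀ a : K, Q.ord (t - algebraMap K E a) = -1 := by
    intro a
    by_cases ha : a = 0
    · rw [ha, map_zero, sub_zero, hQt]
    · rw [sub_eq_add_neg, ← map_neg, ord_add_eq_of_lt Q ht0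
        (by rw [hQt, ord_algebraMap]; omega), hQt]
  have hdiv : ∀ a : K, (divOf (t - algebraMap K E a) : Divisor K E) =
      Finsupp.single (P a) 1 - Finsupp.single Q 1 := by
    intro a
    have h1 : Divisor.degree (poleDiv (t - algebraMap K E a) : Divisor K E) = 1 := by
      have h2 := degree_divOf (K := K) (t - algebraMap K E a)
      rw [divOf_eq_sub, map_sub, hP, Divisor.degree_single, deg_eq_one_of_isFF] at h2
      omega
    obtain ⟨Q', hQ'⟩ := exists_eq_single (poleDiv_nonneg (K := K) _) h1
    have h3 : Q' = Q := by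
      by_contra hne'
      have h4 := DFunLike.congr_fun hQ' Q
      rw [poleDiv_apply, Finsupp.single_eq_of_ne (Ne.symm hne'), hQa] at h4
      omega
    rw [divOf_eq_sub, hP, hQ', h3]
  have hPa : ∀ a : K, P a ≠ Q := by
    intro a h
    have h1 := DFunLike.congr_fun (hP a) Q
    rw [zeroDiv_apply, hQa, h, Finsupp.single_eq_same] at h1
    omega
  have hPo : ∀ a : K, (P a).ord (t - algebraMap K E a) = 1 := by
    intro a
    have h1 := DFunLike.congr_fun (hdiv a) (P a)
    rw [divOf_apply, Finsupp.sub_apply, Finsupp.single_eq_same,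
      Finsupp.single_eq_of_ne (hPa a)] at h1
    omega
  have hPval : ∀ a : K, val (P a) t = a := fun a => val_eq_of_ord_sub (Or.inr (by rw [hPo]; omega))
  have hPuniq : ∀ v : Place K E, v ≠ Q → v = P (val v t) := by
    intro v hv
    have h1 : 0 ≤ v.ord t := by
      have h2 := DFunLike.congr_fun hQ v
      rw [poleDiv_apply, Finsupp.single_eq_of_ne hv] at h2
      omega
    have h2 := val_spec v (S27C.mem_of_ord_nonneg h1)
    rw [adic_lt_one_iff] at h2
    have h3 : 0 < v.ord (t - algebraMap K E (val v t)) := h2.resolve_left (hne _)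
    by_contra hne'
    have h4 := DFunLike.congr_fun (hP (val v t)) v
    rw [zeroDiv_apply, Finsupp.single_eq_of_ne hne'] at h4
    omega
  have hdivt : (divOf t : Divisor K E) = Finsupp.single (P 0) 1 - Finsupp.single Q 1 := by
    have := hdiv 0
    rwa [map_zero, sub_zero] at this
  have hordPa : ∀ a b : K, a ≠ b → (P a).ord (t - algebraMap K E b) = 0 := by
    intro a b hab
    have h1 : t - algebraMap K E b = algebraMap K E (a - b) + (t - algebraMap K E a) := by
      rw [map_sub]; ring
    rw [h1, ord_add_eq_of_lt (P a) ((map_ne_zero _).2 (sub_ne_zero.2 hab))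
      (by rw [ord_algebraMap, hPo]; omega), ord_algebraMap]
  have hvalPa : ∀ a b : K, val (P a) (t - algebraMap K E b) = a - b := by
    intro a b
    apply val_eq_of_ord_sub
    right
    have h1 : t - algebraMap K E b - algebraMap K E (a - b) = t - algebraMap K E a := by
      rw [map_sub]; ring
    rw [h1, hPo]; omega
  -- the support of `h`
  have hQh : Q.ord h = 0 := by
    rcases hdis Q with h1 | h1
    · omega
    · exact h1
  have hP0h : (P 0).ord h = 0 := by
    rcases hdis (P 0) with h1 | h1
    · have := hPo 0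
      rw [map_zero, sub_zero] at this
      omega
    · exact h1
  set S := (divOf h : Divisor K E).support with hS
  have hSQ : ∀ v ∈ S, v ≠ Q ∧ val v t ≠ 0 := by
    intro v hv
    rw [hS, Finsupp.mem_support_iff, divOf_apply] at hv
    have h1 : v ≠ Q := by rintro rfl; exact hv hQh
    refine ⟨h1, fun h2 => ?_⟩
    have h3 := hPuniq v h1
    rw [h2] at h3
    rw [h3] at hv
    exact hv hP0h
  haveI : Infinite K := IsAlgClosed.instInfinite
  obtain ⟨b, hb⟩ := Infinite.exists_notMem_finset
    (insert (0 : K) (S.image fun v : Place K E => S27C.val v t))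
  rw [Finset.mem_insert, not_or] at hb
  obtain ⟨hb0, hbS⟩ := hb
  have hbS' : ∀ v ∈ S, val v t ≠ b := fun v hv h => hbS (Finset.mem_image.2 ⟨v, hv, h⟩)
  -- the case of `(t - a) / (t - b)`
  have hbase : ∀ a : K, a ≠ 0 → a ≠ b →
      (divOf ((t - algebraMap K E a) / (t - algebraMap K E b)) : Divisor K E) =
        Finsupp.single (P a) 1 - Finsupp.single (P b) 1 ∧
      Dis ((t - algebraMap K E a) / (t - algebraMap K E b)) (divOf t : Divisor K E) ∧
      ev t (divOf ((t - algebraMap K E a) / (t - algebraMap K E b)) : Divisor K E) =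
        ev ((t - algebraMap K E a) / (t - algebraMap K E b)) (divOf t : Divisor K E) := by
    intro a ha hab
    have hu0 : (t - algebraMap K E a) / (t - algebraMap K E b) ≠ 0 := div_ne_zero (hne a) (hne b)
    have hd : (divOf ((t - algebraMap K E a) / (t - algebraMap K E b)) : Divisor K E) =
        Finsupp.single (P a) 1 - Finsupp.single (P b) 1 := by
      rw [divOf_div (hne a) (hne b), hdiv, hdiv]; abel
    have hord0 : (P 0).ord ((t - algebraMap K E a) / (t - algebraMap K E b)) = 0 := by
      rw [ord_div _ (hne a) (hne b), hordPa 0 a (Ne.symm ha), hordPa 0 b (Ne.symm hb0), sub_zero]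
    have hordQ : Q.ord ((t - algebraMap K E a) / (t - algebraMap K E b)) = 0 := by
      rw [ord_div _ (hne a) (hne b), hQa, hQa, sub_self]
    refine ⟨hd, ?_, ?_⟩
    · intro v hv
      rw [hdivt, Finsupp.sub_apply] at hv
      by_cases h1 : v = P 0
      · rw [h1, hord0]
      · by_cases h2 : v = Q
        · rw [h2, hordQ]
        · rw [Finsupp.single_eq_of_ne h1, Finsupp.single_eq_of_ne h2, sub_zero] at hv
          exact absurd rfl hv
    · rw [hd, hdivt, ev_sub, ev_sub, ev_single, ev_single, ev_single, ev_single, zpow_one, zpow_one,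
        zpow_one, zpow_one]
      apply Units.ext
      have hta : ∀ c : K, c ≠ 0 → (uval (P c) t : K) = c := by
        intro c hc
        have h3 := hordPa c 0 hc
        rw [map_zero, sub_zero] at h3
        rw [coe_uval ht0 h3, hPval]
      rw [Units.val_div_eq_div_val, Units.val_div_eq_div_val, hta a ha, hta b hb0,
        coe_uval hu0 hord0, coe_uval hu0 hordQ]
      have h4 : val (P 0) ((t - algebraMap K E a) / (t - algebraMap K E b)) = a / b := by
        rw [val_div (P 0) (mem_of_ord_eq_zero (hordPa 0 a (Ne.symm ha)))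
          (mem_of_ord_eq_zero (hordPa 0 b (Ne.symm hb0))) (by
            rw [hvalPa, zero_sub]; exact neg_ne_zero.2 hb0), hvalPa, hvalPa, zero_sub, zero_sub,
            neg_div_neg_eq]
      have h5 : val Q ((t - algebraMap K E a) / (t - algebraMap K E b)) = 1 := by
        apply val_eq_of_ord_sub
        right
        have h6 : (t - algebraMap K E a) / (t - algebraMap K E b) - algebraMap K E 1 =
            algebraMap K E (b - a) / (t - algebraMap K E b) := by
          rw [map_one, map_sub, div_sub_one (hne b)]; congr 1; ring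
        rw [h6, ord_div _ ((map_ne_zero _).2 (sub_ne_zero.2 (Ne.symm hab))) (hne b), hQa,
          ord_algebraMap]
        omega
      rw [h4, h5, div_one]
  -- decomposition
  set H : E := ∏ v ∈ S, ((t - algebraMap K E (val v t)) / (t - algebraMap K E b)) ^ (v.ord h)
    with hH
  have hHf0 : ∀ v ∈ S,
      ((t - algebraMap K E (val v t)) / (t - algebraMap K E b)) ^ (v.ord h) ≠ 0 := fun v _ =>
    zpow_ne_zero _ (div_ne_zero (hne _) (hne _))
  have hH0 : H ≠ 0 := Finset.prod_ne_zero_iff.2 hHf0
  have hHdiv : (divOf H : Divisor K E) = divOf h := by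
    rw [hH, divOf_prod _ _ hHf0]
    have h1 : ∀ v ∈ S, (divOf (((t - algebraMap K E (val v t)) / (t - algebraMap K E b)) ^
        (v.ord h)) : Divisor K E) =
        Finsupp.single v (v.ord h) - (v.ord h) • Finsupp.single (P b) 1 := by
      intro v hv
      rw [divOf_zpow, (hbase (val v t) (hSQ v hv).2 (hbS' v hv)).1, ← hPuniq v (hSQ v hv).1,
        smul_sub, Finsupp.smul_single, smul_eq_mul, mul_one]
    rw [Finset.sum_congr rfl h1, Finset.sum_sub_distrib, ← Finset.sum_smul]
    have h2 : ∑ v ∈ S, v.ord h = 0 := by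
      have h3 := degree_divOf (K := K) h
      rw [degree_eq_sum, Finsupp.sum] at h3
      rw [← h3]
      refine Finset.sum_congr rfl fun v _ => ?_
      rw [deg_eq_one_of_isFF, Nat.cast_one, mul_one, divOf_apply]
    rw [h2, zero_smul, sub_zero]
    conv_rhs => rw [← Finsupp.sum_single (divOf h : Divisor K E)]
    rw [Finsupp.sum]
    refine Finset.sum_congr rfl fun v _ => ?_
    rw [divOf_apply]
  have hdish : Dis h (divOf t : Divisor K E) := fun v hv => by
    rw [divOf_apply] at hv
    exact (hdis v).resolve_left hv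
  rw [ev_eq_of_divOf_eq hh hH0 hHdiv.symm (degree_divOf t) hdish, ← hHdiv, hH,
    divOf_prod _ _ hHf0, ev_sum, ev_prod S hHf0 fun v hv =>
      (hbase (val v t) (hSQ v hv).2 (hbS' v hv)).2.1.zpow _]
  refine Finset.prod_congr rfl fun v hv => ?_
  obtain ⟨-, h2, h3⟩ := hbase (val v t) (hSQ v hv).2 (hbS' v hv)
  rw [divOf_zpow, ev_zsmul, h3, ev_zpow (div_ne_zero (hne _) (hne _)) h2]

end Rational

section Main

variable {K F : Type*} [Field K] [Field F] [Algebra K F] [IsAlgClosed K] [IsFF K F]

attribute [local instance] isCurveOver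

theorem adjoin_gen_top (f : F) : K⟮AdjoinSimple.gen K f⟯ = ⊤ := by
  rw [eq_top_iff]
  rintro ⟨x, hx⟩ -
  have h2 : K⟮AdjoinSimple.gen K f⟯.map (K⟮f⟯).val = K⟮f⟯ := by
    rw [adjoin_map, Set.image_singleton]
    rfl
  have h3 : x ∈ K⟮AdjoinSimple.gen K f⟯.map (K⟮f⟯).val := by rw [h2]; exact hx
  obtain ⟨y, hy, hyx⟩ := h3
  have : y = ⟨x, hx⟩ := Subtype.ext hyx
  rwa [← this]

theorem transcendental_gen {f : F} (hf : Transcendental K f) :
    Transcendental K (AdjoinSimple.gen K f) := fun ha =>
  hf ((isAlgebraic_algebraMap_iff (A := F) (algebraMap K⟮f⟯ F).injective).mpr ha)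

theorem finrank_gen (f : F) : Module.finrank K⟮AdjoinSimple.gen K f⟯ K⟮f⟯ = 1 := by
  rw [adjoin_gen_top, IntermediateField.finrank_top]

theorem isFF_adjoin {f : F} (hf : Transcendental K f) : IsFF K K⟮f⟯ := by
  refine ⟨⟨AdjoinSimple.gen K f, transcendental_gen hf, ?_⟩⟩
  exact FiniteDimensional.of_finrank_pos (by rw [finrank_gen]; exact one_pos)

/-- **Weil reciprocity.** -/
theorem weil_reciprocity {f g : F} (hf : f ≠ 0) (hg : g ≠ 0)
    (hdis : ∀ v : Place K F, v.ord f = 0 ∨ v.ord g = 0) :
    ev f (divOf g : Divisor K F) = ev g (divOf f : Divisor K F) := by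
  by_cases htr : Transcendental K f
  · haveI := isFF_adjoin htr
    haveI : Module.Finite K⟮f⟯ F := finiteDimensional_adjoin_of_isFF htr
    set t := AdjoinSimple.gen K f with ht
    have htf : algebraMap K⟮f⟯ F t = f := rfl
    have hN0 : Algebra.norm K⟮f⟯ g ≠ 0 := norm_ne_zero hg
    -- disjointness for the norm
    have hdis' : ∀ v : Place K K⟮f⟯, v.ord t = 0 ∨ v.ord (Algebra.norm K⟮f⟯ g) = 0 := by
      intro v
      by_cases hv : v.ord t = 0
      · exact Or.inl hv
      · right
        apply norm_ord_eq_zero
        intro w hw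
        rcases hdis w with h1 | h1
        · exfalso
          apply hv
          rw [← hw, ← ord_restrict_eq_zero_iff, htf, h1]
        · exact h1
    have hpf : Divisor.pushforward K⟮f⟯ (divOf g : Divisor K F) =
        divOf (Algebra.norm K⟮f⟯ g) :=
      Divisor.pushforward_eq_of_normFormula (pushforwardNormFormula K K⟮f⟯ F) hg
        (fun w => divOf_apply g w) (fun v => divOf_apply _ v)
    have hpb : Divisor.pullback F (divOf t : Divisor K K⟮f⟯) = divOf f := by
      ext w
      rw [Divisor.pullback_apply_eq_ord (fun v => divOf_apply t v), divOf_apply, htf]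
    calc ev f (divOf g : Divisor K F) = ev t (divOf (Algebra.norm K⟮f⟯ g) : Divisor K K⟮f⟯) := by
          rw [← hpf, ← ev_algebraMap, htf]
      _ = ev (Algebra.norm K⟮f⟯ g) (divOf t : Divisor K K⟮f⟯) :=
          recip_rational t (transcendental_gen htr) (finrank_gen f) hN0 hdis'
      _ = ev g (divOf f : Divisor K F) := by
          rw [ev_norm hg, hpb]
          rw [hpb]
          intro w hw
          rw [divOf_apply] at hw
          exact (hdis w).resolve_left hw
  · obtain ⟨c, rfl⟩ := mem_range_algebraMap_of_isAlgebraic (not_not.1 htr)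
    have hc : c ≠ 0 := by rintro rfl; exact hf (map_zero _)
    rw [divOf_const, ev_zero, ev_const_degZero hc (degree_divOf g)]

end Main

end Fermat.Agent.WeilPairing
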